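import Fermat.Agent.Duality.Setup
import Fermat.Agent.Duality.Coh.Mackey
import Fermat.Agent.Duality.Places.Fields
import Fermat.Agent.Gal.Unramified

/-!
# Levels unramified outside a finite set of primes, and localisation maps

`galLevelsS S` is the family of levels of `GalQ` given by finite extensions unramified outside `S`.
The localisation maps at a prime `q` go through `padicEmbedding q`.
-/

set_option autoImplicit false

noncomputable section

namespace Fermat.Agent.Duality

open IntermediateField
open scoped Pointwise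

section SLevels

/-- The normal closure of a field unramified outside `S` is unramified outside `S`. -/
lemma isUnramifiedOutside_normalClosure {S : Finset Nat.Primes} {E : IntermediateField ℚ Qbar}
    (hE : E.IsUnramifiedOutside S) :
    (IntermediateField.normalClosure ℚ E Qbar).IsUnramifiedOutside S := by
  have := hE.1
  refine ⟨inferInstance, fun q hq A hA σ hσ => ?_⟩
  have hle : IntermediateField.normalClosure ℚ E Qbar ≤
      IntermediateField.fixedField (Subgroup.zpowers σ) := by
    rw [normalClosure_le_iff]
    rintro f x ⟨e, rfl⟩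
    let ρ : GalQ := AlgEquiv.ofBijective (f.liftNormal Qbar)
      (Algebra.IsAlgebraic.algHom_bijective _)
    have hρ : ρ (e : Qbar) = f e := by
      show f.liftNormal Qbar (algebraMap E Qbar e) = _
      rw [AlgHom.liftNormal_commutes]
      rfl
    have h1 := hE.2 q hq _ (Fermat.Agent.Gal.liesOverPrime_smul ρ⁻¹ hA)
      (Fermat.Agent.Gal.conj_mem_inertia hσ ρ⁻¹)
    rw [IntermediateField.mem_fixingSubgroup_iff] at h1
    have h2 : σ (f e) = f e := by
      have h := congrArg ρ (h1 (e : Qbar) e.2)
      rw [inv_inv, AlgEquiv.mul_apply, AlgEquiv.mul_apply, hρ, AlgEquiv.aut_inv,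
        AlgEquiv.apply_symm_apply] at h
      exact h
    rintro ⟨g, hg⟩
    obtain ⟨m, rfl⟩ := hg
    exact (MulAction.mem_stabilizer_iff).1
      (zpow_mem (K := MulAction.stabilizer GalQ (f e)) (MulAction.mem_stabilizer_iff.2 h2) m)
  rw [IntermediateField.mem_fixingSubgroup_iff]
  exact fun x hx => hle hx ⟨σ, Subgroup.mem_zpowers σ⟩

/-- Levels given by finite extensions unramified outside `S`. -/
def galLevelsS (S : Finset Nat.Primes) : Coh.Levels GalQ where
  ok U := ∃ E : IntermediateField ℚ Qbar, E.IsUnramifiedOutside S ∧ E.fixingSubgroup ≤ U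
  top_ok := ⟨⊥, IntermediateField.isUnramifiedOutside_bot S, le_top⟩
  inf_ok := fun ⟨E, hE, h⟩ ⟨E', hE', h'⟩ => ⟨E ⊔ E', hE.sup hE', le_inf
    ((IntermediateField.fixingSubgroup_antitone le_sup_left).trans h)
    ((IntermediateField.fixingSubgroup_antitone le_sup_right).trans h')⟩
  mono := fun ⟨E, hE, h⟩ h' => ⟨E, hE, h.trans h'⟩
  exists_normal := fun ⟨E, hE, h⟩ => by
    have := hE.1
    refine ⟨(IntermediateField.normalClosure ℚ E Qbar).fixingSubgroup,
      ⟨_, isUnramifiedOutside_normalClosure hE, le_rfl⟩, ?_,
      (IntermediateField.fixingSubgroup_antitone (IntermediateField.le_normalClosure E)).trans h⟩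
    have : Normal ℚ (IntermediateField.normalClosure ℚ E Qbar) :=
      normalClosure.normal ℚ E Qbar
    rw [← IntermediateField.restrictNormalHom_ker]
    exact MonoidHom.normal_ker _
  finiteIndex := fun ⟨E, hE, h⟩ => by
    have := hE.1
    have := finiteIndex_fixingSubgroup ℚ Qbar E
    exact Subgroup.finiteIndex_of_le h

variable {S : Finset Nat.Primes}

lemma galLevelsS_ok_fixingSubgroup {E : IntermediateField ℚ Qbar}
    (hE : E.IsUnramifiedOutside S) : (galLevelsS S).ok E.fixingSubgroup := ⟨E, hE, le_rfl⟩

lemma galLevels_ok_of_galLevelsS {U : Subgroup GalQ} (hU : (galLevelsS S).ok U) :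
    (galLevels ℚ Qbar).ok U := by
  obtain ⟨E, hE, h⟩ := hU
  exact ⟨E, hE.1, h⟩

/-- Inflation from the levels unramified outside `S` to all levels. -/
lemma compat_galLevelsS (S : Finset Nat.Primes) :
    (galLevels ℚ Qbar).Compat (galLevelsS S) (MonoidHom.id GalQ) :=
  fun _ hU => galLevels_ok_of_galLevelsS hU

lemma compat_galLevelsS_mono {S' : Finset Nat.Primes} (h : S ⊆ S') :
    (galLevelsS S').Compat (galLevelsS S) (MonoidHom.id GalQ) :=
  fun _ ⟨E, hE, hle⟩ => ⟨E, hE.mono h, hle⟩

end SLevels

section MuMap

variable {p : ℕ} {L L' : Type} [Field L] [Field L']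

/-- The map on `p`-th roots of unity induced by a field embedding. -/
def muMap (f : L →+* L') : Mu p L →+ Mu p L' :=
  AddMonoidHom.mk'
    (fun x => muMk (Additive.ofMul (Units.map (f : L →* L') (muVal x).toMul))
      (Additive.toMul.injective (by
        rw [toMul_nsmul, toMul_ofMul, ← map_pow, ← toMul_nsmul, nsmul_muVal, toMul_zero, map_one,
          toMul_zero])))
    fun x y => muVal_injective <| by
      rw [map_add muVal (muMk _ _), muVal_muMk, muVal_muMk, muVal_muMk, map_add, toMul_add,
        map_mul]
      rfl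

lemma muVal_muMap (f : L →+* L') (x : Mu p L) :
    (((muVal (muMap f x)).toMul : L'ˣ) : L') = f (((muVal x).toMul : Lˣ) : L) := rfl

lemma muMap_injective (f : L →+* L') : Function.Injective (muMap (p := p) f) := by
  intro x y h
  refine muVal_injective (Additive.toMul.injective (Units.ext (f.injective ?_)))
  rw [← muVal_muMap, ← muVal_muMap, h]

end MuMap

section Local

variable {p : ℕ} [NeZero p] (q : ℕ) [Fact q.Prime]

/-- The roots of unity of `ℚ̄` inside those of `PadicAlgCl q`. -/
def muEmb : Mu p Qbar →+ Mu p (PadicAlgCl q) := muMap (padicEmbedding q).toRingHom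

lemma muEmb_bijective : Function.Bijective (muEmb (p := p) q) := by
  refine ⟨muMap_injective _, fun y => ?_⟩
  have hy : (((muVal y).toMul : (PadicAlgCl q)ˣ) : PadicAlgCl q) ^ p = 1 := by
    rw [← Units.val_pow_eq_pow_val, ← toMul_nsmul, nsmul_muVal, toMul_zero, Units.val_one]
  obtain ⟨x, hx⟩ := Places.mem_range_of_root q (g := Polynomial.X ^ p - 1)
    (Polynomial.X_pow_sub_C_ne_zero (NeZero.pos p) (1 : ℚ))
    (b := (((muVal y).toMul : (PadicAlgCl q)ˣ) : PadicAlgCl q)) (by
      rw [Polynomial.mem_aroots, Polynomial.aeval_map_algebraMap]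
      refine ⟨?_, by simp [hy]⟩
      rw [Ne, Polynomial.map_eq_zero]
      exact Polynomial.X_pow_sub_C_ne_zero (NeZero.pos p) (1 : ℚ))
  have hxp : x ^ p = 1 := (padicEmbedding q).toRingHom.injective (by
    rw [map_pow, map_one, AlgHom.toRingHom_eq_coe, RingHom.coe_coe, hx, hy])
  refine ⟨muMk (Additive.ofMul (Units.ofPowEqOne x p hxp (NeZero.ne p)))
    (Additive.toMul.injective (Units.pow_ofPowEqOne hxp (NeZero.ne p))), ?_⟩
  exact muVal_injective (Additive.toMul.injective (Units.ext hx))

/-- `muEmb` as an isomorphism. -/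
def muEquiv : Mu p Qbar ≃+ Mu p (PadicAlgCl q) :=
  AddEquiv.ofBijective (muEmb q) (muEmb_bijective q)

omit [NeZero p] in
lemma isEquivariant_muEmb :
    Coh.IsEquivariant (localGaloisToGlobal q) (muEmb (p := p) q) := fun τ x => by
  refine muVal_injective (Additive.toMul.injective (Units.ext ?_))
  exact padicEmbedding_localGaloisToGlobal q τ _

/-- The local Galois group maps levels to levels. -/
lemma compat_localGaloisToGlobal :
    (galLevels ℚ_[q] (PadicAlgCl q)).Compat (galLevels ℚ Qbar) (localGaloisToGlobal q) := by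
  rintro U ⟨E, hE, hle⟩
  have := hE
  refine ⟨Places.localField q E, inferInstance, ?_⟩
  rw [Places.fixingSubgroup_localField]
  exact Subgroup.comap_mono hle

/-- The local Galois group maps `S`-levels to levels. -/
lemma compat_localGaloisToGlobal_S (S : Finset Nat.Primes) :
    (galLevels ℚ_[q] (PadicAlgCl q)).Compat (galLevelsS S) (localGaloisToGlobal q) :=
  fun U hU => compat_localGaloisToGlobal q U (galLevels_ok_of_galLevelsS hU)

variable (p)

/-- The levels at `q` of a subgroup `H` at the double coset of `g`. -/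
abbrev locGroup (H : Subgroup GalQ) (g : GalQ) : Subgroup (GalLoc q) :=
  Coh.twisted (localGaloisToGlobal q) g H

/-- Localisation of degree two classes of `μ_p` over `H` at the place `(q, g)`. -/
abbrev locμ₂ (H : Subgroup GalQ) (g : GalQ) :
    H2μ p H →+ H2μ p (locGroup q H g) :=
  Coh.locTwist₂ (compat_localGaloisToGlobal q) (isEquivariant_muEmb q) g H

/-- Localisation of degree one classes of `μ_p` over `H` at the place `(q, g)`. -/
abbrev locμ₁ (H : Subgroup GalQ) (g : GalQ) :
    H1μ p H →+ H1μ p (locGroup q H g) :=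
  Coh.locTwist₁ (compat_localGaloisToGlobal q) (isEquivariant_muEmb q) g H

end Local

end Fermat.Agent.Duality

end
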