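import Fermat.Agent.Duality.RepMod
import Fermat.Agent.Duality.Coh.ShaPairing

/-!
# The inputs of global duality for `S`-levels

The module `PlaceC p S` plays the role of the `S`-idele classes killed by `p`.  `GlobalInputs`
collects the invariant maps and the statements about `μ_p` from which the duality follows.
-/

set_option autoImplicit false

noncomputable section

namespace Fermat.Agent.Duality

variable (p : ℕ) [Fact p.Prime] (S : Finset Nat.Primes)

instance factPlacePrime (q : ↥S) : Fact ((q.1 : Nat.Primes) : ℕ).Prime := ⟨q.1.2⟩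

/-- The local-to-global homomorphisms at the places in `S`. -/
abbrev locφ (q : ↥S) : GalLoc (q.1 : ℕ) →* GalQ := localGaloisToGlobal (q.1 : ℕ)

/-- The product of the coinduced local roots of unity. -/
abbrev PlaceJ : Type := Coh.PlaceMod (galLevelsS S) (locφ S) (Mu p Qbar)

/-- The quotient by the diagonal roots of unity. -/
abbrev PlaceC : Type := Coh.PlaceQuot (galLevelsS S) (locφ S) (Mu p Qbar)

/-- Local degree two classes of `μ_p`. -/
abbrev LocH2 (q : ↥S) : Type :=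
  Coh.H2 (galLevels ℚ_[(q.1 : ℕ)] (PadicAlgCl (q.1 : ℕ))) (Mu p (PadicAlgCl (q.1 : ℕ)))

/-- Localisation of a global class of `μ_p` at a place in `S`. -/
abbrev locS (q : ↥S) : Coh.H2 (galLevelsS S) (Mu p Qbar) →+ LocH2 p S q :=
  Coh.H2.map (compat_localGaloisToGlobal_S (q.1 : ℕ) S) (isEquivariant_muEmb (q.1 : ℕ))

variable {p S}

/-- A functional extending the sum of the invariants. -/
def IsIota [Nonempty ↥S] (hμ : Coh.IsSmooth (galLevelsS S) (Mu p Qbar))
    (inv : ∀ q : ↥S, LocH2 p S q →+ ZMod p)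
    (ι : Coh.H2 (galLevelsS S) (PlaceC p S) →+ ZMod p) : Prop :=
  ∀ x, ι ((Coh.placeSeq (galLevelsS S) (locφ S) hμ).mapπ₂ x) =
    Coh.placeSum (fun q : ↥S => compat_localGaloisToGlobal_S (q.1 : ℕ) S)
      (fun q : ↥S => isEquivariant_muEmb (p := p) (q.1 : ℕ)) inv x

/-- Reciprocity gives such a functional. -/
theorem exists_isIota [Nonempty ↥S] (hμ : Coh.IsSmooth (galLevelsS S) (Mu p Qbar))
    (inv : ∀ q : ↥S, LocH2 p S q →+ ZMod p)
    (hrec : ∀ x, ∑ q : ↥S, inv q (locS p S q x) = 0) :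
    ∃ ι, IsIota hμ inv ι :=
  Coh.exists_iota (fun q : ↥S => compat_localGaloisToGlobal_S (q.1 : ℕ) S)
    (fun q : ↥S => isEquivariant_muEmb (p := p) (q.1 : ℕ)) inv hμ torsion_Mu
    (ZModModule.char_nsmul_eq_zero p) hrec

variable (p S) in
/-- Everything the formal argument needs. -/
structure GlobalInputs [Nonempty ↥S] where
  smooth : Coh.IsSmooth (galLevelsS S) (Mu p Qbar)
  inv : ∀ q : ↥S, LocH2 p S q →+ ZMod p
  ι : Coh.H2 (galLevelsS S) (PlaceC p S) →+ ZMod p
  hι : IsIota smooth inv ι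
  base : Coh.IsDualityBase (p := p) ι (Mu p Qbar)
  sep : ∀ H : Subgroup GalQ, (galLevelsS S).ok H → (∀ (h : H) (l : Mu p Qbar), h • l = l) →
    ∀ c : Coh.HomMod (Mu p Qbar) (PlaceC p S), c ≠ 0 → (∀ h ∈ H, h • c = c) →
    ∃ (H' : Subgroup GalQ) (hH' : (galLevelsS S).ok H')
      (hc : c ∈ Coh.inv H' (Coh.HomMod (Mu p Qbar) (PlaceC p S))),
      H' ≤ H ∧ ∃ x, Coh.theta₂ (Coh.iotaSub ι H' hH') x ⟨c, hc⟩ ≠ 0
  localBase : ∀ q : ↥S, Coh.IsDualityBase (p := p) (inv q) (Mu p (PadicAlgCl (q.1 : ℕ)))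

end Fermat.Agent.Duality

end
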