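import Fermat.Agent.Duality.GlobalInputs

/-!
# Comparison with the locally trivial classes of the statement
-/

set_option autoImplicit false

noncomputable section

namespace Fermat.Agent.Duality

open CategoryTheory groupCohomology ExtCitation

variable {p : ℕ} [Fact p.Prime] {S : Finset Nat.Primes}

section Arch

variable {M : Rep.{0} (ZMod p) archimedeanDecomposition}

lemma archimedeanGen_sq : archimedeanGen * archimedeanGen = 1 :=
  Subtype.ext complexConjugation_mul_self

lemma archimedean_eq (g : archimedeanDecomposition) : g = 1 ∨ g = archimedeanGen := by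
  obtain ⟨g, n, rfl⟩ := g
  rcases Int.even_or_odd n with ⟨k, rfl⟩ | ⟨k, rfl⟩
  · refine Or.inl (Subtype.ext ?_)
    show complexConjugation ^ (k + k) = 1
    rw [← two_mul, zpow_mul, zpow_ofNat, complexConjugation_sq, one_zpow]
  · refine Or.inr (Subtype.ext ?_)
    show complexConjugation ^ (2 * k + 1) = complexConjugation
    rw [zpow_add, zpow_mul, zpow_ofNat, complexConjugation_sq, one_zpow, one_mul, zpow_one]

/-- One-cocycles of the group generated by complex conjugation are coboundaries. -/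
lemma exists_eq_coboundary_archimedean (hp2 : p ≠ 2) (f : archimedeanDecomposition → M)
    (hf : ∀ g h, f (g * h) = M.ρ g (f h) + f g) : ∃ a : M, ∀ g, f g = M.ρ g a - a := by
  have h1 : f 1 = 0 := by
    have := hf 1 1
    simpa using this
  have h2 : M.ρ archimedeanGen (f archimedeanGen) = -f archimedeanGen := by
    have := hf archimedeanGen archimedeanGen
    rw [archimedeanGen_sq, h1] at this
    exact eq_neg_of_add_eq_zero_left this.symm
  have h2ne : (2 : ZMod p) ≠ 0 := fun h => hp2 ((Nat.prime_dvd_prime_iff_eq (Fact.out : p.Prime)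
    Nat.prime_two).mp ((ZMod.natCast_eq_zero_iff 2 p).mp (by exact_mod_cast h)))
  refine ⟨(-(2 : ZMod p)⁻¹) • f archimedeanGen, fun g => ?_⟩
  rcases archimedean_eq g with rfl | rfl
  · simp [h1]
  · rw [map_smul, h2, smul_neg, neg_smul, neg_neg, sub_neg_eq_add, ← add_smul, ← two_mul,
      mul_inv_cancel₀ h2ne, one_smul]

/-- Every function on the group generated by complex conjugation is level constant. -/
lemma isLevelConstant₁_archimedean {X : Type} (f : archimedeanDecomposition → X) :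
    IsLevelConstant₁ archimedeanLoc f := by
  obtain ⟨x, hx⟩ : ∃ x : Qbar, complexConjugation x ≠ x := by
    obtain ⟨i, hi⟩ := IsAlgClosed.exists_eq_mul_self (-1 : Qbar)
    refine ⟨i, fun h => ?_⟩
    have h1 := congrArg complexEmbedding h
    rw [complexEmbedding_complexConjugation, Complex.conj_eq_iff_real] at h1
    obtain ⟨r, hr⟩ := h1
    have h2 := congrArg complexEmbedding hi
    rw [map_neg, map_one, map_mul, hr, ← Complex.ofReal_mul] at h2
    have h3 : (-1 : ℝ) = r * r := by exact_mod_cast h2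
    nlinarith [mul_self_nonneg r]
  refine ⟨IntermediateField.adjoin ℚ {x}, IntermediateField.adjoin.finiteDimensional
    (Algebra.IsIntegral.isIntegral x), fun g s hs => ?_⟩
  rcases archimedean_eq s with rfl | rfl
  · rw [mul_one]
  · exact absurd ((IntermediateField.mem_fixingSubgroup_iff _ _).mp hs x
      (IntermediateField.mem_adjoin_simple_self ℚ x)) hx

instance fintypeArchimedean : Fintype archimedeanDecomposition := by
  classical
  exact ⟨{1, archimedeanGen}, fun g => by rcases archimedean_eq g with rfl | rfl <;> simp⟩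

lemma archimedeanGen_ne_one : archimedeanGen ≠ 1 := by
  intro h
  obtain ⟨i, hi⟩ := IsAlgClosed.exists_eq_mul_self (-1 : Qbar)
  have h1 := congrArg complexEmbedding (DFunLike.congr_fun (congrArg Subtype.val h) i)
  rw [show ((archimedeanGen : archimedeanDecomposition) : GalQ) = complexConjugation from rfl,
    complexEmbedding_complexConjugation, Subgroup.coe_one, AlgEquiv.one_apply,
    Complex.conj_eq_iff_real] at h1
  obtain ⟨r, hr⟩ := h1
  have h2 := congrArg complexEmbedding hi
  rw [map_neg, map_one, map_mul, hr, ← Complex.ofReal_mul] at h2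
  have h3 : (-1 : ℝ) = r * r := by exact_mod_cast h2
  nlinarith [mul_self_nonneg r]

/-- The continuous `H²` of the group generated by complex conjugation vanishes. -/
lemma continuousH2_archimedean_eq_zero (hp2 : p ≠ 2) (x : continuousH2 archimedeanLoc M) :
    x = 0 := by
  obtain ⟨z, rfl⟩ := Submodule.Quotient.mk_surjective _ x
  refine (continuousH2π_eq_zero_iff _ _ z).mpr ((mem_levelCoboundaries₂_iff _ _ _).mpr ?_)
  have h2ne : (2 : ZMod p) ≠ 0 := fun h => hp2 ((Nat.prime_dvd_prime_iff_eq (Fact.out : p.Prime)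
    Nat.prime_two).mp ((ZMod.natCast_eq_zero_iff 2 p).mp (by exact_mod_cast h)))
  refine ⟨fun g => (2 : ZMod p)⁻¹ • ∑ h, z.1 (g, h), isLevelConstant₁_archimedean _,
    funext fun ⟨g, h⟩ => ?_⟩
  have hz := (mem_cocycles₂_iff z.1).mp z.2.1
  have hcard : Fintype.card archimedeanDecomposition = 2 := by
    classical
    rw [← Finset.card_univ]
    show ({1, archimedeanGen} : Finset _).card = 2
    rw [Finset.card_pair archimedeanGen_ne_one.symm]
  rw [d₁₂_hom_apply]
  dsimp only
  rw [map_smul, map_sum, ← smul_sub, ← smul_add,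
    show ∑ j, z.1 (g, j) = ∑ j, z.1 (g, h * j) from
      (Fintype.sum_equiv (Equiv.mulLeft h) _ _ fun j => rfl).symm,
    ← Finset.sum_sub_distrib, ← Finset.sum_add_distrib]
  rw [Finset.sum_congr rfl (g := fun _ => z.1 (g, h)) fun j _ => ?_, Finset.sum_const,
    Finset.card_univ, hcard, ← Nat.cast_smul_eq_nsmul (ZMod p), smul_smul, Nat.cast_ofNat,
    inv_mul_cancel₀ h2ne, one_smul]
  have h1 := hz g h j
  rw [← eq_sub_iff_add_eq'] at h1
  rw [h1]
  abel

end Arch

section Compare

variable (M : Rep.{0} (ZMod p) GalQ)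

/-- A choice of coordinate on the roots of unity. -/
def muIndex : Mu p Qbar ≃+ ZMod p :=
  haveI : NeZero p := ⟨(Fact.out : p.Prime).ne_zero⟩
  (zmodAddCyclicAddEquiv (isAddCyclic_of_prime_card card_Mu)).symm.trans
    (ZMod.ringEquivCongr card_Mu).toAddEquiv

attribute [irreducible] muIndex

/-- The functional attached to a homomorphism into `μ_p`. -/
def toDual : Coh.HomMod (RepMod M) (Mu p Qbar) →+ (M.dualTwist (cycloChar p)) where
  toFun f :=
    (((muIndex (p := p)).toAddMonoidHom.comp f.toHom).toZModLinearMap p : M.V →ₗ[ZMod p] ZMod p)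
  map_zero' := LinearMap.ext fun _ => map_zero (muIndex (p := p))
  map_add' _ _ := LinearMap.ext fun _ => map_add (muIndex (p := p)) _ _

lemma toDual_bijective : Function.Bijective (toDual M) := by
  refine ⟨fun f f' h => Coh.HomMod.ext fun m => muIndex.injective (LinearMap.congr_fun h m),
    fun l => ?_⟩
  exact ⟨Coh.HomMod.of (muIndex.symm.toAddMonoidHom.comp (l.toAddMonoidHom : RepMod M →+ ZMod p)),
    LinearMap.ext fun m => muIndex.apply_symm_apply _⟩

lemma toDual_smul (g : GalQ) (f : Coh.HomMod (RepMod M) (Mu p Qbar)) :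
    toDual M (g • f) = (M.dualTwist (cycloChar p)).ρ g (toDual M f) := by
  rw [Rep.dualTwist_ρ_apply]
  refine LinearMap.ext fun m => ?_
  show muIndex (g • f (g⁻¹ • (RepMod.equiv M).symm m)) =
    (cycloChar p g : ZMod p) * muIndex (f ((RepMod.equiv M).symm (M.ρ g⁻¹ m)))
  rw [smul_Mu_eq_cycloExp, map_nsmul, nsmul_eq_mul, ← coe_cycloChar]
  rfl

lemma isLevelConstantS₁_iff {X : Type} (f : GalQ → X) :
    IsLevelConstantS₁ S f ↔ Coh.IsConst₁ (galLevelsS S) f :=
  ⟨fun ⟨F, hF, h⟩ => ⟨F.fixingSubgroup, galLevelsS_ok_fixingSubgroup hF, h⟩,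
    fun ⟨_, ⟨F, hF, hle⟩, h⟩ => ⟨F, hF, fun g s hs => h g s (hle hs)⟩⟩

lemma isLevelConstantS₂_iff {X : Type} (f : GalQ → GalQ → X) :
    IsLevelConstantS₂ S (fun x : GalQ × GalQ => f x.1 x.2) ↔ Coh.IsConst₂ (galLevelsS S) f :=
  ⟨fun ⟨F, hF, h⟩ => ⟨F.fixingSubgroup, galLevelsS_ok_fixingSubgroup hF,
      fun g g' s hs t ht => h g g' s t hs ht⟩,
    fun ⟨_, ⟨F, hF, hle⟩, h⟩ => ⟨F, hF, fun g g' s s' hs hs' => h g g' s (hle hs) s' (hle hs')⟩⟩

lemma isLevelConstant₁_local_iff {X : Type} (q : ℕ) [Fact q.Prime] (f : GalLoc q → X) :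
    IsLevelConstant₁ (localGaloisToGlobal q) f ↔
      Coh.IsConst₁ (galLevels ℚ_[q] (PadicAlgCl q)) f := by
  constructor
  · rintro ⟨F, hF, h⟩
    have := hF
    exact ⟨_, compat_localGaloisToGlobal q _ (galLevels_ok_fixingSubgroup F),
      fun g s hs => h g s hs⟩
  · rintro ⟨U, ⟨L, hL, hle⟩, h⟩
    have := hL
    obtain ⟨F, hF, rfl⟩ := Places.exists_localField_eq q L
    refine ⟨F, hF, fun g s hs => h g s (hle ?_)⟩
    rw [Places.fixingSubgroup_localField]
    exact hs

/-- The cocycle with values in the dual twist. -/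
def dualCocycle : Coh.Z1 (galLevelsS S) (Coh.HomMod (RepMod M) (Mu p Qbar)) →+
    cocycles₁ (M.dualTwist (cycloChar p)) where
  toFun z := ⟨fun g => toDual M ((z : GalQ → Coh.HomMod (RepMod M) (Mu p Qbar)) g),
    (mem_cocycles₁_iff _).mpr fun g h => by
    rw [← toDual_smul, ← map_add, (Coh.mem_Z1.mp z.2).2 g h]⟩
  map_zero' := Subtype.ext (funext fun g => map_zero (toDual M))
  map_add' _ _ := Subtype.ext (funext fun g => map_add (toDual M) _ _)

lemma dualCocycle_apply (z : Coh.Z1 (galLevelsS S) (Coh.HomMod (RepMod M) (Mu p Qbar))) (g : GalQ) :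
    (dualCocycle M z).1 g = toDual M ((z : GalQ → Coh.HomMod (RepMod M) (Mu p Qbar)) g) := rfl

/-- The comparison in degree one. -/
def dualClass : Coh.H1 (galLevelsS S) (Coh.HomMod (RepMod M) (Mu p Qbar)) →+
    groupCohomology.H1 (M.dualTwist (cycloChar p)) :=
  QuotientAddGroup.lift _ ((H1π _).hom.toAddMonoidHom.comp (dualCocycle M)) fun z hz => by
    obtain ⟨a, ha⟩ := hz
    refine (H1π_eq_zero_iff _).mpr ⟨toDual M a, funext fun g => ?_⟩
    show (M.dualTwist (cycloChar p)).ρ g (toDual M a) - toDual M a =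
      toDual M ((z : GalQ → Coh.HomMod (RepMod M) (Mu p Qbar)) g)
    rw [← toDual_smul, ← map_sub]
    exact congrArg _ (congrFun ha g)

lemma dualClass_mk (z : Coh.Z1 (galLevelsS S) (Coh.HomMod (RepMod M) (Mu p Qbar))) :
    dualClass M (Coh.H1.mk z) = H1π _ (dualCocycle M z) := rfl

lemma dualClass_injective : Function.Injective (dualClass (S := S) M) := by
  refine (injective_iff_map_eq_zero _).mpr fun x hx => ?_
  obtain ⟨z, rfl⟩ := Coh.H1.mk_surjective x
  rw [dualClass_mk, H1π_eq_zero_iff] at hx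
  obtain ⟨l, hl⟩ := hx
  obtain ⟨a, rfl⟩ := (toDual_bijective M).2 l
  refine Coh.H1.mk_eq_zero.mpr ⟨a, fun g => (toDual_bijective M).1 ?_⟩
  rw [map_sub, toDual_smul]
  exact (congrFun hl g).symm

lemma exists_dualClass_eq {x : groupCohomology.H1 (M.dualTwist (cycloChar p))}
    (hx : x ∈ continuousH1S S (M.dualTwist (cycloChar p))) :
    ∃ y : Coh.H1 (galLevelsS S) (Coh.HomMod (RepMod M) (Mu p Qbar)), dualClass M y = x := by
  obtain ⟨c, hc, rfl⟩ := (mem_continuousH1S_iff S _ x).mp hx
  let e := AddEquiv.ofBijective (toDual M) (toDual_bijective M)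
  refine ⟨Coh.H1.mk ⟨fun g => e.symm (c g), ((isLevelConstantS₁_iff _).mp hc).comp e.symm, ?_⟩, ?_⟩
  · funext g h
    refine (toDual_bijective M).1 ?_
    have h1 := (mem_cocycles₁_iff _).mp c.2 g h
    simp only [Coh.d₁_apply, map_add, map_sub, Pi.zero_apply, map_zero]
    rw [toDual_smul, show ∀ l, toDual M (e.symm l) = l from e.apply_symm_apply,
      show ∀ l, toDual M (e.symm l) = l from e.apply_symm_apply,
      show ∀ l, toDual M (e.symm l) = l from e.apply_symm_apply, sub_add_eq_add_sub,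
      sub_eq_zero]
    exact h1.symm
  · rw [dualClass_mk]
    exact congrArg _ (Subtype.ext (funext fun g => e.apply_symm_apply _))

lemma dualClass_mem (y : Coh.H1 (galLevelsS S) (Coh.HomMod (RepMod M) (Mu p Qbar))) :
    dualClass M y ∈ continuousH1S S (M.dualTwist (cycloChar p)) := by
  obtain ⟨z, rfl⟩ := Coh.H1.mk_surjective y
  exact (mem_continuousH1S_iff S _ _).mpr
    ⟨dualCocycle M z, (isLevelConstantS₁_iff _).mpr (z.2.1.comp (toDual M)), rfl⟩

lemma mem_sha₁_iff [Nonempty ↥S] (hp2 : p ≠ 2)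
    (y : Coh.H1 (galLevelsS S) (Coh.HomMod (RepMod M) (Mu p Qbar))) :
    dualClass M y ∈ sha₁ S (M.dualTwist (cycloChar p)) ↔
      y ∈ Coh.shaOne (φ := locφ S) (M := RepMod M)
        (fun q d m => RepMod.local_smul (q.1 : ℕ) d m)
        (fun q => compat_localGaloisToGlobal_S (q.1 : ℕ) S)
        (fun q => isEquivariant_muEmb (p := p) (q.1 : ℕ)) := by
  obtain ⟨z, rfl⟩ := Coh.H1.mk_surjective y
  have key : ∀ v, (locRes (extArithLoc S) (M.dualTwist (cycloChar p)) v).hom
      (dualClass M (Coh.H1.mk z)) = 0 ↔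
      ∃ l : (M.dualTwist (cycloChar p)), ∀ d, (dualCocycle M z).1 (extArithLoc S v d) =
        (M.dualTwist (cycloChar p)).ρ (extArithLoc S v d) l - l := fun v => by
    rw [dualClass_mk]
    erw [H1π_comp_map_apply]
    rw [H1π_eq_zero_iff]
    refine ⟨fun ⟨l, hl⟩ => ⟨l, fun d => (congrFun hl d).symm⟩,
      fun ⟨l, hl⟩ => ⟨l, funext fun d => (hl d).symm⟩⟩
  have hfin : ∀ q : ↥S, (∃ l : (M.dualTwist (cycloChar p)), ∀ d,
      (dualCocycle M z).1 (localGaloisToGlobal (q.1 : ℕ) d) =
        (M.dualTwist (cycloChar p)).ρ (localGaloisToGlobal (q.1 : ℕ) d) l - l) ↔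
      Coh.H1.map (compat_localGaloisToGlobal_S (q.1 : ℕ) S)
        (Coh.HomMod.isEquivariant_post (M := RepMod M) (fun d m => RepMod.local_smul (q.1 : ℕ) d m)
          (isEquivariant_muEmb (p := p) (q.1 : ℕ))) (Coh.H1.mk z) = 0 := fun q => by
    have : NeZero p := ⟨(Fact.out : p.Prime).ne_zero⟩
    have hequiv := Coh.HomMod.isEquivariant_post (M := RepMod M)
      (fun d m => RepMod.local_smul (q.1 : ℕ) d m) (isEquivariant_muEmb (p := p) (q.1 : ℕ))
    have hinj : Function.Injective (Coh.HomMod.post (M := RepMod M) (muEmb (p := p) (q.1 : ℕ))) :=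
      fun f f' h => Coh.HomMod.ext fun m => (muEmb_bijective _).1 (DFunLike.congr_fun h m)
    rw [Coh.H1.map_mk, Coh.H1.mk_eq_zero]
    constructor
    · rintro ⟨l, hl⟩
      obtain ⟨a, rfl⟩ := (toDual_bijective M).2 l
      refine ⟨Coh.HomMod.post (muEmb (p := p) (q.1 : ℕ)) a, fun d => ?_⟩
      have h1 : (z : GalQ → Coh.HomMod (RepMod M) (Mu p Qbar)) (localGaloisToGlobal (q.1 : ℕ) d) =
          localGaloisToGlobal (q.1 : ℕ) d • a - a := (toDual_bijective M).1 (by
        rw [map_sub, toDual_smul]; exact hl d)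
      rw [Coh.Z1.map_apply, h1, map_sub, hequiv]
    · rintro ⟨b, hb⟩
      let e := muEquiv (p := p) (q.1 : ℕ)
      refine ⟨toDual M (Coh.HomMod.of (e.symm.toAddMonoidHom.comp b.toHom)), fun d => ?_⟩
      rw [dualCocycle_apply, ← toDual_smul, ← map_sub]
      refine congrArg _ (hinj ?_)
      have h2 : Coh.HomMod.post (muEmb (p := p) (q.1 : ℕ))
          (Coh.HomMod.of (e.symm.toAddMonoidHom.comp b.toHom)) = b :=
        Coh.HomMod.ext fun m => e.apply_symm_apply _
      rw [map_sub, hequiv, h2]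
      exact hb d
  rw [Coh.mem_shaOne]
  constructor
  · rintro ⟨-, h⟩ q
    exact (hfin q).mp ((key (Sum.inr q)).mp (congrFun h (Sum.inr q)))
  · refine fun h => ⟨dualClass_mem M _, funext fun v => ?_⟩
    match v with
    | Sum.inl _ =>
      refine (key (Sum.inl ())).mpr ?_
      exact exists_eq_coboundary_archimedean
        (M := Rep.res archimedeanLoc (M.dualTwist (cycloChar p)))
        hp2 (fun d => (dualCocycle M z).1 (archimedeanLoc d))
        fun g g' => by
          show (dualCocycle M z).1 (archimedeanLoc (g * g')) = _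
          rw [map_mul]
          exact (mem_cocycles₁_iff _).mp (dualCocycle M z).2 _ _
    | Sum.inr q => exact (key (Sum.inr q)).mpr ((hfin q).mpr (h q))

/-- The comparison in degree two. -/
def twoClass : Coh.H2 (galLevelsS S) (RepMod M) →+ continuousH2S S M :=
  QuotientAddGroup.lift _
    ((continuousH2Sπ S M).toAddMonoidHom.comp
      { toFun := fun z => (⟨fun x => RepMod.equiv M ((z : GalQ → GalQ → RepMod M) x.1 x.2),
          (mem_cocycles₂_iff _).mpr fun g h j => by
            have h1 := congrArg (RepMod.equiv M) (z.2.2 g h j)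
            simp only [map_add, map_sub, map_zero, RepMod.equiv_smul] at h1
            dsimp only
            rw [eq_comm, ← sub_eq_zero, ← h1]
            abel,
          (isLevelConstantS₂_iff _).mpr (z.2.1.comp (RepMod.equiv M))⟩ : ↥(levelCocyclesS₂ S M))
        map_zero' := rfl
        map_add' := fun _ _ => rfl })
    fun z hz => by
      obtain ⟨u, hu, hu'⟩ := hz
      refine (continuousH2Sπ_eq_zero_iff S M _).mpr ((mem_levelCoboundariesS₂_iff S M _).mpr
        ⟨fun g => RepMod.equiv M (u g), (isLevelConstantS₁_iff _).mpr (hu.comp _),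
          funext fun x => ?_⟩)
      exact congrArg (RepMod.equiv M) (congrFun (congrFun hu' x.1) x.2)

lemma twoClass_mk (z : Coh.Z2 (galLevelsS S) (RepMod M)) :
    ∃ w : ↥(levelCocyclesS₂ S M),
      (∀ g h, w.1 (g, h) = RepMod.equiv M ((z : GalQ → GalQ → RepMod M) g h)) ∧
      twoClass M (Coh.H2.mk z) = continuousH2Sπ S M w :=
  ⟨_, fun _ _ => rfl, rfl⟩

lemma twoClass_injective : Function.Injective (twoClass (S := S) M) := by
  refine (injective_iff_map_eq_zero _).mpr fun x hx => ?_
  obtain ⟨z, rfl⟩ := Coh.H2.mk_surjective x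
  obtain ⟨w, hw, hz⟩ := twoClass_mk M z
  rw [hz, continuousH2Sπ_eq_zero_iff, mem_levelCoboundariesS₂_iff] at hx
  obtain ⟨u, hu, hu'⟩ := hx
  refine Coh.H2.mk_eq_zero.mpr ⟨fun g => (RepMod.equiv M).symm (u g),
    ((isLevelConstantS₁_iff _).mp hu).comp (RepMod.equiv M).symm,
    funext fun g => funext fun h => (RepMod.equiv M).injective ?_⟩
  rw [← hw g h, ← hu']
  rfl

lemma twoClass_surjective : Function.Surjective (twoClass (S := S) M) := fun x => by
  obtain ⟨c, rfl⟩ := Submodule.Quotient.mk_surjective _ x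
  refine ⟨Coh.H2.mk ⟨fun g h => (RepMod.equiv M).symm (c.1 (g, h)),
    ((isLevelConstantS₂_iff fun g h => c.1 (g, h)).mp c.2.2).comp _,
    fun g h j => (RepMod.equiv M).injective ?_⟩, rfl⟩
  have h1 := (mem_cocycles₂_iff c.1).mp c.2.1 g h j
  simp only [map_add, map_sub, map_zero, RepMod.equiv_smul, LinearEquiv.apply_symm_apply]
  rw [eq_sub_iff_add_eq.mpr h1]
  abel

lemma mem_sha₂_iff [Nonempty ↥S] (hp2 : p ≠ 2) (x : Coh.H2 (galLevelsS S) (RepMod M)) :
    twoClass M x ∈ sha₂ S M ↔
      x ∈ Coh.shaTwo (φ := locφ S) (M := RepMod M)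
        (fun q d m => RepMod.local_smul (q.1 : ℕ) d m)
        (fun q => compat_localGaloisToGlobal_S (q.1 : ℕ) S) := by
  obtain ⟨z, rfl⟩ := Coh.H2.mk_surjective x
  obtain ⟨w, hw, hz⟩ := twoClass_mk M z
  have key : ∀ v, locTotal₂S S M (twoClass M (Coh.H2.mk z)) v = 0 ↔
      ∃ u : extArithLocalGroups S v → (Rep.res (extArithLoc S v) M),
        IsLevelConstant₁ (extArithLoc S v) u ∧
        ∀ d d', (Rep.res (extArithLoc S v) M).ρ d (u d') - u (d * d') + u d =
          w.1 (extArithLoc S v d, extArithLoc S v d') := fun v => by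
    rw [hz, locTotal₂S_apply]
    show continuousH2π _ _ _ = 0 ↔ _
    rw [continuousH2π_eq_zero_iff, mem_levelCoboundaries₂_iff]
    exact ⟨fun ⟨u, hu, hu'⟩ => ⟨u, hu, fun d d' => congrFun hu' (d, d')⟩,
      fun ⟨u, hu, hu'⟩ => ⟨u, hu, funext fun ⟨d, d'⟩ => hu' d d'⟩⟩
  rw [Coh.mem_shaTwo, sha₂, LinearMap.mem_ker]
  constructor
  · intro h q
    obtain ⟨u, hu, hu'⟩ := (key (Sum.inr q)).mp (congrFun h (Sum.inr q))
    let v : GalLoc (q.1 : ℕ) → RepMod M := fun d => (RepMod.equiv M).symm (u d)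
    refine Coh.H2.mk_eq_zero.mpr ⟨v, ((isLevelConstant₁_local_iff _ _).mp hu).comp _,
      funext fun d => funext fun d' => (RepMod.equiv M).injective ?_⟩
    exact (hu' d d').trans (hw _ _)
  · refine fun h => funext fun v => (key v).mpr ?_
    match v with
    | Sum.inl _ =>
      have h0 := continuousH2_archimedean_eq_zero hp2
        (locTotal₂S S M (twoClass M (Coh.H2.mk z)) (Sum.inl ()))
      exact (key (Sum.inl ())).mp h0
    | Sum.inr q =>
      obtain ⟨u, hu, hu'⟩ := Coh.H2.mk_eq_zero.mp (h q)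
      refine ⟨fun d => RepMod.equiv M (u d),
        (isLevelConstant₁_local_iff (q.1 : ℕ) _).mpr (hu.comp _), fun d d' => ?_⟩
      exact (congrArg (RepMod.equiv M) (congrFun (congrFun hu' d) d')).trans (hw _ _).symm

end Compare

section Main

variable [Nonempty ↥S] (hp2 : p ≠ 2)
  (M : Rep.{0} (ZMod p) GalQ) [FiniteDimensional (ZMod p) M]

include hp2 in
/-- The pairing of the statement from the inputs of global duality. -/
theorem exists_pairing_of_inputs (I : GlobalInputs p S)
    (hM : Coh.IsSmooth (galLevelsS S) (RepMod M)) :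
    ∃ B : sha₁ S (M.dualTwist (cycloChar p)) →ₗ[ZMod p] sha₂ S M →ₗ[ZMod p] ZMod p,
      (∀ y, (∀ x, B y x = 0) → y = 0) ∧ (∀ x, (∀ y, B y x = 0) → x = 0) := by
  have : NeZero p := ⟨(Fact.out : p.Prime).ne_zero⟩
  have : Finite (Coh.H1 (galLevelsS S) (Coh.HomMod (RepMod M) (Mu p Qbar))) :=
    haveI : Finite (Coh.HomMod (RepMod M) (Mu p Qbar)) :=
      Finite.of_injective (fun f m => f m) fun f f' h => Coh.HomMod.ext (congrFun h)
    finite_H1_galLevelsS (Coh.HomMod.isSmooth hM I.smooth)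
  obtain ⟨P, hPl, hPr⟩ := Coh.exists_sha_pairing (φ := locφ S) (M := RepMod M)
    (fun q d m => RepMod.local_smul (q.1 : ℕ) d m)
    (fun q => compat_localGaloisToGlobal_S (q.1 : ℕ) S)
    (fun q => isEquivariant_muEmb (p := p) (q.1 : ℕ))
    I.inv I.smooth I.ι hM torsion_Mu I.hι (fun q => muEmb_bijective _)
    (fun q => Coh.theta₂_injective (p := p) isSmooth_Mu torsion_Mu
      (ZModModule.char_nsmul_eq_zero p) (I.localBase q) (RepMod.isSmooth_local hM _)
      RepMod.torsion)
    (Coh.theta₂_injective (Coh.PlaceQuot.isSmooth _ _ _)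
      (Coh.PlaceQuot.torsion _ _ _ torsion_Mu) (ZModModule.char_nsmul_eq_zero p) I.base hM
      RepMod.torsion)
    (fun c hc => Coh.theta₂_separates card_Mu I.smooth I.sep hM RepMod.torsion hc)
  let U₁ : AddSubgroup (Coh.H1 (galLevelsS S) (Coh.HomMod (RepMod M) (Mu p Qbar))) :=
    Coh.shaOne (φ := locφ S) (M := RepMod M)
      (fun q d m => RepMod.local_smul (q.1 : ℕ) d m)
      (fun q => compat_localGaloisToGlobal_S (q.1 : ℕ) S)
      (fun q => isEquivariant_muEmb (p := p) (q.1 : ℕ))
  let U₂ : AddSubgroup (Coh.H2 (galLevelsS S) (RepMod M)) :=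
    Coh.shaTwo (φ := locφ S) (M := RepMod M)
      (fun q d m => RepMod.local_smul (q.1 : ℕ) d m)
      (fun q => compat_localGaloisToGlobal_S (q.1 : ℕ) S)
  let f₁ : U₁ →+ sha₁ S (M.dualTwist (cycloChar p)) :=
    AddMonoidHom.mk' (fun y => ⟨dualClass M y.1, (mem_sha₁_iff M hp2 _).mpr y.2⟩)
      fun a b => Subtype.ext (map_add (dualClass M) a.1 b.1)
  let f₂ : U₂ →+ sha₂ S M :=
    AddMonoidHom.mk' (fun y => ⟨twoClass M y.1, (mem_sha₂_iff M hp2 _).mpr y.2⟩)
      fun a b => Subtype.ext (map_add (twoClass M) a.1 b.1)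
  have hf₁ : Function.Bijective f₁ := by
    refine ⟨fun a b h => Subtype.ext (dualClass_injective M (Subtype.ext_iff.mp h)), fun x => ?_⟩
    obtain ⟨y, hy⟩ := exists_dualClass_eq M x.2.1
    exact ⟨⟨y, (mem_sha₁_iff M hp2 y).mp (by rw [hy]; exact x.2)⟩, Subtype.ext hy⟩
  have hf₂ : Function.Bijective f₂ := by
    refine ⟨fun a b h => Subtype.ext (twoClass_injective M (Subtype.ext_iff.mp h)), fun x => ?_⟩
    obtain ⟨y, hy⟩ := twoClass_surjective M x.1
    exact ⟨⟨y, (mem_sha₂_iff M hp2 y).mp (by rw [hy]; exact x.2)⟩, Subtype.ext hy⟩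
  let e₁ := AddEquiv.ofBijective f₁ hf₁
  let e₂ := AddEquiv.ofBijective f₂ hf₂
  let B₀ : sha₁ S (M.dualTwist (cycloChar p)) →+ (sha₂ S M →ₗ[ZMod p] ZMod p) :=
    AddMonoidHom.mk' (fun y => AddMonoidHom.toZModLinearMap p
        (AddMonoidHom.mk' (fun x : sha₂ S M => P (e₁.symm y) (e₂.symm x)) fun x x' => by
          rw [← map_add]; exact congrArg _ (map_add e₂.symm x x')))
      fun y y' => LinearMap.ext fun x => by
        exact (congrArg (fun t => P t (e₂.symm x)) (map_add e₁.symm y y')).trans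
          (DFunLike.congr_fun (map_add P (e₁.symm y) (e₁.symm y')) (e₂.symm x))
  refine ⟨B₀.toZModLinearMap p, fun y hy => ?_, fun x hx => ?_⟩
  · have h := hPl (e₁.symm y) fun x' => by
      have h2 := hy (e₂ x')
      show P _ x' = 0
      rw [← h2]
      exact congrArg _ (e₂.symm_apply_apply x').symm
    exact e₁.symm.injective (h.trans (map_zero e₁.symm).symm)
  · have h := hPr (e₂.symm x) fun y' => by
      have h2 := hx (e₁ y')
      rw [← h2]
      exact congrArg (fun t => P t (e₂.symm x)) (e₁.symm_apply_apply y').symm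
    exact e₂.symm.injective (h.trans (map_zero e₂.symm).symm)

end Main

end Fermat.Agent.Duality

end
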