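import Fermat.Agent.Duality.KummerTheory

/-!
# Classes split by a cyclic extension of prime degree

For a character `χ` of an open subgroup `H` with values in `ZMod p` (trivial action) and kernel
`N`, the classes of `H²(H, μ_p)` killed by restriction to `N` are the `χ ∪ κ(a)`, and such a cup
product vanishes iff `a` is a norm from `N`. Only Hilbert 90 is used.
-/

set_option autoImplicit false

noncomputable section

namespace Fermat.Agent.Duality

/-- `ZMod p` as a module with trivial action. -/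
def Zp (p : ℕ) : Type := ZMod p

instance zpAddCommGroup (p : ℕ) : AddCommGroup (Zp p) := inferInstanceAs (AddCommGroup (ZMod p))

instance zpAction (p : ℕ) {G : Type} [Group G] : DistribMulAction G (Zp p) where
  smul _ x := x
  one_smul _ := rfl
  mul_smul _ _ _ := rfl
  smul_zero _ := rfl
  smul_add _ _ _ := rfl

/-- View an element of `ZMod p` in the trivial module. -/
def Zp.of {p : ℕ} : ZMod p ≃+ Zp p := AddEquiv.refl (ZMod p)

lemma Zp.smul_eq {p : ℕ} {G : Type} [Group G] (g : G) (x : Zp p) : g • x = x := rfl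

variable {p : ℕ} [Fact p.Prime] {F L : Type} [Field F] [Field L] [Algebra F L]

omit [Fact (Nat.Prime p)] in
lemma nsmul_mu (z : Mu p L) : p • z = 0 :=
  muVal_injective (by rw [map_nsmul, nsmul_muVal, map_zero])

omit [Fact (Nat.Prime p)] in
lemma mod_nsmul_mu (n : ℕ) (z : Mu p L) : (n % p) • z = n • z := by
  conv_rhs => rw [← Nat.div_add_mod n p, add_nsmul, mul_nsmul, nsmul_mu, nsmul_zero, zero_add]

/-- The pairing `(i, z) ↦ i • z`. -/
def zpSmul : Zp p →+ Mu p L →+ Mu p L :=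
  AddMonoidHom.mk'
    (fun i => AddMonoidHom.mk' (fun z : Mu p L => ((Zp.of.symm i).val) • z)
      fun z w => nsmul_add z w _)
    fun i j => AddMonoidHom.ext fun z => by
      show ((Zp.of.symm (i + j)).val) • z = (Zp.of.symm i).val • z + (Zp.of.symm j).val • z
      rw [map_add, ZMod.val_add, mod_nsmul_mu, add_nsmul]

lemma zpSmul_apply (i : Zp p) (z : Mu p L) : zpSmul i z = (Zp.of.symm i).val • z := rfl

variable [Normal F L] (H : Subgroup (L ≃ₐ[F] L))

omit [Normal F L] in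
lemma isPairing_zpSmul : Coh.IsPairing (G := H) (zpSmul (p := p) (L := L)) := fun g i z => by
  rw [Zp.smul_eq, zpSmul_apply, zpSmul_apply, smul_comm]

/-- Continuous characters of order dividing `p`. -/
abbrev Char1 (p : ℕ) (H : Subgroup (L ≃ₐ[F] L)) : Type :=
  Coh.Z1 ((galLevels F L).restrict H) (Zp p)

variable {H} (χ : Char1 p H)

omit [Fact (Nat.Prime p)] in
lemma chi_mul (g h : H) : (χ : H → Zp p) (g * h) = (χ : H → Zp p) g + (χ : H → Zp p) h := by
  rw [(Coh.mem_Z1.mp χ.2).2 g h, Zp.smul_eq, add_comm]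

omit [Fact (Nat.Prime p)] in
lemma chi_one : (χ : H → Zp p) 1 = 0 := by
  have h := chi_mul χ 1 1
  rwa [one_mul, left_eq_add] at h

/-- The kernel of a character. -/
def chiKer : Subgroup H where
  carrier := {g | (χ : H → Zp p) g = 0}
  one_mem' := chi_one χ
  mul_mem' {g h} hg hh := by
    show (χ : H → Zp p) (g * h) = 0
    rw [chi_mul, hg, hh, add_zero]
  inv_mem' {g} hg := by
    show (χ : H → Zp p) g⁻¹ = 0
    have h := chi_mul χ g g⁻¹
    rw [mul_inv_cancel, chi_one, hg, zero_add] at h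
    exact h.symm

omit [Fact (Nat.Prime p)] in
lemma mem_chiKer {g : H} : g ∈ chiKer χ ↔ (χ : H → Zp p) g = 0 := Iff.rfl

instance chiKer_normal : (chiKer χ).Normal where
  conj_mem n hn g := by
    rw [mem_chiKer] at hn ⊢
    rw [chi_mul, chi_mul, hn, add_zero, ← chi_mul, mul_inv_cancel, chi_one]

omit [Fact (Nat.Prime p)] in
lemma ok_chiKer : ((galLevels F L).restrict H).ok (chiKer χ) := by
  obtain ⟨U, hU, h⟩ := χ.2.1
  refine ((galLevels F L).restrict H).mono hU fun g hg => ?_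
  rw [mem_chiKer, ← one_mul g, h 1 g hg, chi_one]

/-- The value of a character as a natural number below `p`. -/
def chiVal (g : H) : ℕ := (Zp.of.symm ((χ : H → Zp p) g)).val

lemma chiVal_lt (g : H) : chiVal χ g < p := ZMod.val_lt _

lemma chiVal_mul (g h : H) : chiVal χ (g * h) = (chiVal χ g + chiVal χ h) % p := by
  simp only [chiVal, chi_mul, map_add, ZMod.val_add]

lemma chiVal_eq_zero {g : H} : chiVal χ g = 0 ↔ g ∈ chiKer χ := by
  rw [chiVal, ZMod.val_eq_zero, mem_chiKer]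
  exact ⟨fun h => by simpa using congrArg Zp.of h, fun h => by rw [h, map_zero]⟩

omit [Fact (Nat.Prime p)] in
lemma chiVal_mul_ker_right {n : H} (hn : n ∈ chiKer χ) (g : H) :
    chiVal χ (g * n) = chiVal χ g := by
  simp only [chiVal, chi_mul, (mem_chiKer χ).mp hn, add_zero]

omit [Fact (Nat.Prime p)] in
lemma chiVal_mul_ker_left {n : H} (hn : n ∈ chiKer χ) (g : H) :
    chiVal χ (n * g) = chiVal χ g := by
  simp only [chiVal, chi_mul, (mem_chiKer χ).mp hn, zero_add]

omit [Fact (Nat.Prime p)] in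
lemma isConst₁_chiVal : Coh.IsConst₁ ((galLevels F L).restrict H) (chiVal χ) :=
  χ.2.1.comp fun x => (Zp.of.symm x).val

variable (hχ : χ ≠ 0)

include hχ in
lemma exists_chiVal_eq_one : ∃ s : H, chiVal χ s = 1 := by
  obtain ⟨g, hg⟩ : ∃ g, (χ : H → Zp p) g ≠ 0 := by
    by_contra h
    simp only [not_exists, not_not] at h
    exact hχ (Subtype.ext (funext h))
  set a : ZMod p := Zp.of.symm ((χ : H → Zp p) g) with ha
  have ha0 : a ≠ 0 := fun h => hg (by simpa [ha] using congrArg Zp.of h)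
  refine ⟨g ^ (a⁻¹).val, ?_⟩
  have hpow : ∀ n : ℕ, Zp.of.symm ((χ : H → Zp p) (g ^ n)) = (n : ZMod p) * a := by
    intro n
    induction n with
    | zero => simp [chi_one]
    | succ n ih => rw [pow_succ, chi_mul, map_add, ih, Nat.cast_succ, add_mul, one_mul]
  have : Fact (1 < p) := ⟨(Fact.out : p.Prime).one_lt⟩
  rw [chiVal, hpow, ZMod.natCast_zmod_val, inv_mul_cancel₀ ha0, ZMod.val_one]

/-- An element on which the character is one. -/
def chiGen : H := (exists_chiVal_eq_one χ hχ).choose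

lemma chiVal_chiGen : chiVal χ (chiGen χ hχ) = 1 := (exists_chiVal_eq_one χ hχ).choose_spec

lemma chiVal_gen_pow (i : ℕ) : chiVal χ (chiGen χ hχ ^ i) = i % p := by
  induction i with
  | zero => rw [pow_zero, Nat.zero_mod, chiVal_eq_zero]; exact one_mem _
  | succ i ih => rw [pow_succ, chiVal_mul, ih, chiVal_chiGen, Nat.mod_add_mod]

lemma gen_pow_inv_mul_mem (g : H) :
    (chiGen χ hχ ^ chiVal χ g)⁻¹ * g ∈ chiKer χ := by
  set r := chiGen χ hχ ^ chiVal χ g with hr
  have h1 : chiVal χ r = chiVal χ g := by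
    rw [hr, chiVal_gen_pow, Nat.mod_eq_of_lt (chiVal_lt χ g)]
  have h2 : (χ : H → Zp p) r = (χ : H → Zp p) g :=
    Zp.of.symm.injective (ZMod.val_injective p h1)
  rw [mem_chiKer, chi_mul, ← h2, ← chi_mul, inv_mul_cancel, chi_one]

lemma gen_pow_prime_mem : chiGen χ hχ ^ p ∈ chiKer χ := by
  rw [← chiVal_eq_zero, chiVal_gen_pow, Nat.mod_self]

section Fixed

variable {A : Type} [AddCommGroup A] [DistribMulAction H A]

/-- On elements fixed by the kernel the action factors through the character. -/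
lemma smul_eq_gen_pow_smul {α : A} (hα : ∀ n ∈ chiKer χ, n • α = α) (g : H) :
    g • α = chiGen χ hχ ^ chiVal χ g • α := by
  conv_lhs =>
    rw [← mul_inv_cancel_left (chiGen χ hχ ^ chiVal χ g) g, mul_smul,
      hα _ (gen_pow_inv_mul_mem χ hχ g)]

/-- The sum of the translates under powers of the generator. -/
def genSum (α : A) (k : ℕ) : A := ∑ j ∈ Finset.range k, chiGen χ hχ ^ j • α

lemma genSum_add (α : A) (a b : ℕ) :
    genSum χ hχ α (a + b) = genSum χ hχ α a + chiGen χ hχ ^ a • genSum χ hχ α b := by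
  simp only [genSum, Finset.sum_range_add, Finset.smul_sum, smul_smul, ← pow_add]

lemma smul_genSum_fixed {α : A} (hα : ∀ n ∈ chiKer χ, n • α = α) (k : ℕ) :
    ∀ n ∈ chiKer χ, n • genSum χ hχ α k = genSum χ hχ α k := by
  intro n hn
  rw [genSum, Finset.smul_sum]
  refine Finset.sum_congr rfl fun j _ => ?_
  have h1 := hα _ ((chiKer_normal χ).conj_mem n hn (chiGen χ hχ ^ j)⁻¹)
  rw [mul_smul, mul_smul, inv_inv, inv_smul_eq_iff] at h1
  exact h1

lemma smul_genSum_prime {α : A} (hα : ∀ n ∈ chiKer χ, n • α = α) (g : H) :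
    g • genSum χ hχ α p = genSum χ hχ α p := by
  have hs : chiGen χ hχ • genSum χ hχ α p = genSum χ hχ α p := by
    have h1 := genSum_add χ hχ α 1 p
    have h2 := genSum_add χ hχ α p 1
    rw [add_comm p 1, h1] at h2
    simp only [pow_one] at h2
    rw [show genSum χ hχ α 1 = α by simp [genSum], hα _ (gen_pow_prime_mem χ hχ), add_comm _ α]
      at h2
    exact add_left_cancel h2
  rw [smul_eq_gen_pow_smul χ hχ (smul_genSum_fixed χ hχ hα p)]
  induction chiVal χ g with
  | zero => rw [pow_zero, one_smul]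
  | succ i ih => rw [pow_succ, mul_smul, hs, ih]

end Fixed

section Units

variable (hH : (galLevels F L).ok H)

/-- Hilbert 90 for open subgroups of an open subgroup. -/
theorem exists_eq_smul_sub_of_subgroup (hH : (galLevels F L).ok H) {N : Subgroup H}
    (hN : ((galLevels F L).restrict H).ok N) (u : H → Lx L)
    (hu : Coh.IsConst₁ ((galLevels F L).restrict H) u)
    (hc : ∀ g ∈ N, ∀ h ∈ N, u (g * h) = g • u h + u g) :
    ∃ r : Lx L, ∀ g ∈ N, u g = g • r - r := by
  obtain ⟨V, hV, hVN⟩ := hN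
  set N' : Subgroup (L ≃ₐ[F] L) := N.map H.subtype with hN'
  have hN'ok : (galLevels F L).ok N' :=
    (galLevels F L).mono ((galLevels F L).inf_ok hV hH) fun g hg =>
      Subgroup.mem_map.mpr ⟨⟨g, hg.2⟩, hVN hg.1, rfl⟩
  have hle : N' ≤ H := Subgroup.map_subtype_le N
  have hmem : ∀ g : N', Subgroup.inclusion hle g ∈ N := fun g => by
    obtain ⟨x, hx, hxg⟩ := Subgroup.mem_map.mp g.2
    convert hx
    exact Subtype.ext hxg.symm
  obtain ⟨U, ⟨W, hW, hWU⟩, hu⟩ := hu
  obtain ⟨r, hr⟩ := exists_eq_smul_sub N' hN'ok (fun g => u (Subgroup.inclusion hle g))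
    ⟨W.subgroupOf N', ⟨W, hW, le_rfl⟩, fun g s hs => by
      dsimp only
      rw [map_mul]
      exact hu _ _ (hWU hs)⟩
    fun g h => by
      rw [map_mul, hc _ (hmem g) _ (hmem h)]
      rfl
  refine ⟨r, fun g hg => ?_⟩
  exact hr ⟨g, Subgroup.mem_map_of_mem _ hg⟩

variable [IsAlgClosed L]

include hH in
/-- Cocycles of `μ_p` differing by a coboundary of units are cohomologous. -/
theorem mk_eq_mk_of_units {f f' : Coh.Z2 ((galLevels F L).restrict H) (Mu p L)} {Z : H → Lx L}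
    (hZ : Coh.IsConst₁ ((galLevels F L).restrict H) Z)
    (h : ∀ g k : H, muVal ((f : H → H → Mu p L) g k) =
      muVal ((f' : H → H → Mu p L) g k) + (g • Z k - Z (g * k) + Z g)) :
    Coh.H2.mk f = Coh.H2.mk f' := by
  have hp : 0 < p := (Fact.out : p.Prime).pos
  obtain ⟨w, hw⟩ := exists_eq_smul_sub H hH (fun g => p • Z g) (hZ.comp (p • ·)) fun g k => by
    have h1 := congrArg (p • ·) (h g k)
    simp only [nsmul_add, nsmul_sub, nsmul_muVal, zero_add] at h1
    rw [smul_comm g p (Z k)]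
    exact sub_eq_zero.mp (by rw [← neg_sub, neg_eq_zero, h1]; abel)
  set ρ := rootP p w with hρ
  have hsm := isSmooth_restrict (isSmooth_Lx (F := F) (L := L)) H
  have hY : ∀ g, p • (Z g - (g • ρ - ρ)) = 0 := fun g => by
    rw [nsmul_sub, nsmul_sub, ← smul_comm g p ρ, hρ, nsmul_rootP hp, hw, sub_self]
  refine Coh.H2.mk_eq_mk.mpr ⟨fun g => muMk _ (hY g), ?_, funext fun g => funext fun k =>
    muVal_injective ?_⟩
  · obtain ⟨U, hU, hUc⟩ := hZ.comp₂ ((hsm.isConst₁_smul ρ).comp (· - ρ)) (· - ·)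
    exact ⟨U, hU, fun g s hs => muVal_injective (hUc g s hs)⟩
  · simp only [Pi.add_apply, map_add, Coh.d₁_apply, map_sub]
    rw [show muVal (g • muMk (Z k - (k • ρ - ρ)) (hY k)) = g • (Z k - (k • ρ - ρ)) from rfl,
      muVal_muMk, muVal_muMk, h, smul_sub, smul_sub, mul_smul]
    abel

/-- The cup product of a character with a Kummer class. -/
def cupChi : Coh.inv H (Lx L) →+ H2μ p H :=
  (Coh.cup₁₁ (isPairing_zpSmul H) (isSmooth_restrict isSmooth_Mu H) (Coh.H1.mk χ)).comp
    (kummer H (Fact.out : p.Prime).pos)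

/-- The cocycle representing `χ ∪ κ(a)`. -/
def cupChiCocycle (a : Coh.inv H (Lx L)) : Coh.Z2 ((galLevels F L).restrict H) (Mu p L) :=
  Coh.Z1.cup (isPairing_zpSmul H) (isSmooth_restrict isSmooth_Mu H) χ
    (kummerFun H (Fact.out : p.Prime).pos a)

lemma cupChi_apply (a : Coh.inv H (Lx L)) : cupChi χ a = Coh.H2.mk (cupChiCocycle χ a) := rfl

/-- The potential comparing `χ ∪ κ(a)` with the carry cocycle of `a`. -/
def cupPot (a : Coh.inv H (Lx L)) (g : H) : Lx L := chiVal χ g • g • rootP p (a : Lx L)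

omit [Fact (Nat.Prime p)] in
omit [IsAlgClosed L] in
lemma isConst₁_cupPot (a : Coh.inv H (Lx L)) :
    Coh.IsConst₁ ((galLevels F L).restrict H) (cupPot χ a) :=
  (isConst₁_chiVal χ).comp₂
    ((isSmooth_restrict (isSmooth_Lx (F := F) (L := L)) H).isConst₁_smul (rootP p (a : Lx L)))
    (· • ·)

lemma muVal_cupChiCocycle_add (a : Coh.inv H (Lx L)) (g h : H) :
    muVal ((cupChiCocycle χ a : H → H → Mu p L) g h) +
        (g • cupPot χ a h - cupPot χ a (g * h) + cupPot χ a g) =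
      ((chiVal χ g + chiVal χ h) / p) • (a : Lx L) := by
  have hp : 0 < p := (Fact.out : p.Prime).pos
  have hfix : p • (g * h) • rootP p (a : Lx L) = a := by
    rw [← smul_comm (g * h) p (rootP p (a : Lx L)), nsmul_rootP hp, a.2]
  rw [show (cupChiCocycle χ a : H → H → Mu p L) g h =
      zpSmul ((χ : H → Zp p) g) (g • (kummerFun H hp a : H → Mu p L) h) from rfl,
    zpSmul_apply, map_nsmul,
    show muVal (g • (kummerFun H hp a : H → Mu p L) h) =
      g • (h • rootP p (a : Lx L) - rootP p (a : Lx L)) from rfl]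
  simp only [cupPot, chiVal_mul]
  rw [smul_sub, ← mul_smul, nsmul_sub, smul_comm g (chiVal χ h) (h • rootP p (a : Lx L)),
    ← mul_smul g h]
  conv_rhs => rw [← hfix, ← mul_nsmul']
  have e := Nat.div_add_mod (chiVal χ g + chiVal χ h) p
  rw [mul_comm p] at e
  have e2 := congrArg (· • ((g * h) • rootP p (a : Lx L))) e
  simp only [add_nsmul] at e2
  show chiVal χ g • (g * h) • rootP p (a : Lx L) - _ + _ = _
  rw [← eq_sub_iff_add_eq] at e2
  rw [e2]
  simp only [chiVal]
  abel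

omit [IsAlgClosed L] in
lemma isConst₁_genSum (α : Lx L) :
    Coh.IsConst₁ ((galLevels F L).restrict H) fun g => genSum χ hχ α (chiVal χ g) :=
  (isConst₁_chiVal χ).comp _

omit [IsAlgClosed L] in
lemma d_genSum {α : Lx L} (hα : ∀ n ∈ chiKer χ, n • α = α) (g h : H) :
    g • genSum χ hχ α (chiVal χ h) - genSum χ hχ α (chiVal χ (g * h)) +
        genSum χ hχ α (chiVal χ g) =
      ((chiVal χ g + chiVal χ h) / p) • genSum χ hχ α p := by
  rw [chiVal_mul, smul_eq_gen_pow_smul χ hχ (smul_genSum_fixed χ hχ hα _) g]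
  set a := chiVal χ g
  set b := chiVal χ h
  have key : ∀ k r : ℕ, genSum χ hχ α (r + p * k) = genSum χ hχ α r + k • genSum χ hχ α p := by
    intro k r
    induction k with
    | zero => simp
    | succ k ih =>
      rw [show r + p * (k + 1) = (r + p * k) + p by ring, genSum_add, ih,
        smul_genSum_prime χ hχ hα (chiGen χ hχ ^ (r + p * k)), succ_nsmul, add_assoc]
  have h1 := key ((a + b) / p) ((a + b) % p)
  rw [Nat.mod_add_div, genSum_add] at h1
  rw [← sub_eq_zero] at h1 ⊢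
  rw [← h1]
  abel

omit [IsAlgClosed L] in
include hχ in
/-- The coset representatives of the kernel of a character are the powers of the generator. -/
lemma cor₀_chiKer [Fintype (H ⧸ chiKer χ)] (b : Coh.inv (chiKer χ) (Lx L)) :
    (Coh.cor₀ (chiKer χ) b : Lx L) = genSum χ hχ (b : Lx L) p := by
  have hb : ∀ n ∈ chiKer χ, n • (b : Lx L) = b := fun n hn => b.2 ⟨n, hn⟩
  show ∑ x : H ⧸ chiKer χ, x.out • (b : Lx L) = _
  rw [genSum]
  refine Finset.sum_nbij' (fun x => chiVal χ x.out)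
    (fun j => ((chiGen χ hχ ^ j : H) : H ⧸ chiKer χ))
    (fun x _ => Finset.mem_range.mpr (chiVal_lt χ _)) (fun _ _ => Finset.mem_univ _) ?_ ?_ ?_
  · intro x _
    conv_rhs => rw [← QuotientGroup.out_eq' x]
    rw [QuotientGroup.eq]
    exact gen_pow_inv_mul_mem χ hχ _
  · intro j hj
    obtain ⟨n, hn⟩ := QuotientGroup.mk_out_eq_mul (chiKer χ) (chiGen χ hχ ^ j)
    show chiVal χ _ = j
    rw [hn, chiVal_mul_ker_right χ n.2, chiVal_gen_pow,
      Nat.mod_eq_of_lt (Finset.mem_range.mp hj)]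
  · exact fun x _ => smul_eq_gen_pow_smul χ hχ hb x.out

include hH hχ in
/-- `χ ∪ κ(a) = 0` iff `a` is a norm from the kernel of `χ`. -/
theorem cupChi_eq_zero_iff [Fintype (H ⧸ chiKer χ)] (a : Coh.inv H (Lx L)) :
    cupChi χ a = 0 ↔
      ∃ b : Coh.inv (chiKer χ) (Lx L), Coh.cor₀ (chiKer χ) b = a := by
  have hsm := isSmooth_restrict (isSmooth_Lx (F := F) (L := L)) H
  constructor
  · intro h
    rw [cupChi_apply] at h
    obtain ⟨u, hu, hu'⟩ := Coh.H2.mk_eq_zero.mp h
    set Z : H → Lx L := fun g => muVal (u g) + cupPot χ a g with hZdef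
    have hZ : Coh.IsConst₁ ((galLevels F L).restrict H) Z :=
      (hu.comp muVal).comp₂ (isConst₁_cupPot χ a) (· + ·)
    have hd : ∀ g k : H, g • Z k - Z (g * k) + Z g =
        ((chiVal χ g + chiVal χ k) / p) • (a : Lx L) := fun g k => by
      have h1 := congrArg muVal (congrFun (congrFun hu' g) k)
      simp only [Coh.d₁_apply, map_add, map_sub] at h1
      rw [show muVal (g • u k) = g • muVal (u k) from rfl] at h1
      rw [← muVal_cupChiCocycle_add χ a g k, ← h1]
      simp only [hZdef, smul_add]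
      abel
    have hk : ∀ n ∈ chiKer χ, ∀ g : H, (chiVal χ g + chiVal χ n) / p = 0 ∧
        (chiVal χ n + chiVal χ g) / p = 0 := fun n hn g => by
      rw [(chiVal_eq_zero χ).mpr hn, zero_add, add_zero, Nat.div_eq_of_lt (chiVal_lt χ g)]
      exact ⟨rfl, rfl⟩
    obtain ⟨w, hw⟩ := exists_eq_smul_sub_of_subgroup hH (ok_chiKer χ) Z hZ fun g hg k hkk => by
      have h1 := hd g k
      rw [(hk g hg k).2, zero_nsmul, sub_add_eq_add_sub, sub_eq_zero] at h1
      exact h1.symm
    set W : H → Lx L := fun g => Z g - (g • w - w) with hW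
    have hdW : ∀ g k : H, g • W k - W (g * k) + W g =
        ((chiVal χ g + chiVal χ k) / p) • (a : Lx L) := fun g k => by
      rw [← hd g k]
      simp only [hW, smul_sub, mul_smul]
      abel
    have hW0 : ∀ n ∈ chiKer χ, W n = 0 := fun n hn => by
      simp only [hW, hw n hn, sub_self]
    have hWr : ∀ n ∈ chiKer χ, ∀ g : H, W (g * n) = W g := fun n hn g => by
      have h1 := hdW g n
      rw [hW0 n hn, smul_zero, (hk n hn g).1, zero_nsmul, zero_sub] at h1
      exact (neg_add_eq_zero.mp h1)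
    have hWfix : ∀ g : H, ∀ n ∈ chiKer χ, n • W g = W g := fun g n hn => by
      have h1 := hdW n g
      have h2 : n * g = g * (g⁻¹ * n * g⁻¹⁻¹) := by group
      rw [h2, hWr _ ((chiKer_normal χ).conj_mem n hn g⁻¹), hW0 n hn, add_zero, (hk n hn g).2,
        zero_nsmul, sub_eq_zero] at h1
      exact h1
    set s := chiGen χ hχ with hs
    have hpow : ∀ i < p, W (s ^ i) = genSum χ hχ (W s) i := by
      intro i hi
      induction i with
      | zero => rw [pow_zero, hW0 1 (one_mem _)]; simp [genSum]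
      | succ i ih =>
        have h1 := hdW (s ^ i) s
        rw [chiVal_gen_pow, chiVal_chiGen, Nat.mod_eq_of_lt (by omega),
          Nat.div_eq_of_lt hi, zero_nsmul, ← pow_succ] at h1
        rw [genSum_add, ← ih (by omega), show genSum χ hχ (W s) 1 = W s by simp [genSum]]
        rw [sub_add_eq_add_sub, sub_eq_zero] at h1
        rw [← h1, add_comm]
    refine ⟨⟨W s, fun n => hWfix s n n.2⟩, Subtype.ext ?_⟩
    rw [cor₀_chiKer χ hχ]
    have hp1 : 1 ≤ p := (Fact.out : p.Prime).pos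
    have h1 := hdW (s ^ (p - 1)) s
    rw [chiVal_gen_pow, chiVal_chiGen, Nat.mod_eq_of_lt (by omega), ← pow_succ,
      Nat.sub_add_cancel hp1, Nat.div_self (by omega), one_nsmul,
      hW0 _ (gen_pow_prime_mem χ hχ), sub_zero, hpow _ (by omega)] at h1
    rw [← h1]
    show genSum χ hχ (W s) p = _
    have h2 := genSum_add χ hχ (W s) (p - 1) 1
    rw [Nat.sub_add_cancel hp1] at h2
    rw [h2, show genSum χ hχ (W s) 1 = W s by simp [genSum], add_comm]
  · rintro ⟨b, hb⟩
    have hb' : ∀ n ∈ chiKer χ, n • (b : Lx L) = b := fun n hn => b.2 ⟨n, hn⟩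
    rw [cupChi_apply]
    refine (mk_eq_mk_of_units hH (f' := 0)
      (Z := fun g => genSum χ hχ (b : Lx L) (chiVal χ g) - cupPot χ a g)
      ((isConst₁_genSum χ hχ _).comp₂ (isConst₁_cupPot χ a) (· - ·)) fun g k => ?_).trans
      (map_zero _)
    have h1 := muVal_cupChiCocycle_add χ a g k
    have h2 := d_genSum χ hχ hb' g k
    rw [show (a : Lx L) = genSum χ hχ (b : Lx L) p by rw [← hb, cor₀_chiKer χ hχ]] at h1
    simp only [ZeroMemClass.coe_zero, Pi.zero_apply, map_zero, zero_add]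
    rw [← h2] at h1
    rw [eq_sub_of_add_eq h1]
    simp only [smul_sub]
    abel

include hH hχ in
/-- A class killed by restriction to the kernel of `χ` is a cup product with `χ`. -/
theorem exists_cupChi_eq (x : H2μ p H) (hx : Coh.res₂ (chiKer χ) x = 0) :
    ∃ a : Coh.inv H (Lx L), cupChi χ a = x := by
  have hsm := isSmooth_restrict (isSmooth_Lx (F := F) (L := L)) H
  obtain ⟨f, rfl⟩ := Coh.H2.mk_surjective x
  obtain ⟨y, hy, hy'⟩ := Coh.H2.mk_eq_zero.mp hx
  set s := chiGen χ hχ with hs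
  let r : H → H := fun g => s ^ chiVal χ g
  have hN := ok_chiKer χ
  have hr : ∀ g, (r g)⁻¹ * g ∈ chiKer χ := gen_pow_inv_mul_mem χ hχ
  have hrr : Coh.IsConst₁ ((galLevels F L).restrict H) r :=
    (isConst₁_chiVal χ).comp fun i => s ^ i
  have hrn : ∀ n ∈ chiKer χ, r n = 1 := fun n hn => by
    simp only [r, (chiVal_eq_zero χ).mpr hn, pow_zero]
  have hrm : ∀ g, ∀ n ∈ chiKer χ, r (g * n) = r g := fun g n hn => by
    simp only [r, chiVal_mul_ker_right χ hn]
  obtain ⟨U, hU, hyU⟩ := hy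
  obtain ⟨V, hV, hfV⟩ := f.2.1
  classical
  -- the first correction: kill the restriction to the kernel
  let y₁ : H → Lx L := fun g => if h : g ∈ chiKer χ then muVal (y ⟨g, h⟩) else 0
  have hy₁ : Coh.IsConst₁ ((galLevels F L).restrict H) y₁ := by
    obtain ⟨W, hW, hWU⟩ := hU
    refine ⟨W ⊓ chiKer χ, ((galLevels F L).restrict H).inf_ok hW hN, fun g t ht => ?_⟩
    by_cases hg : g ∈ chiKer χ
    · simp only [y₁, dif_pos hg, dif_pos (mul_mem hg ht.2)]
      exact congrArg muVal (hyU ⟨g, hg⟩ ⟨t, ht.2⟩ (hWU ht.1))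
    · simp only [y₁, dif_neg hg]
      rw [dif_neg fun h => hg (((chiKer χ).mul_mem_cancel_right ht.2).mp h)]
  let c₀ : H → H → Lx L := fun g k => muVal ((f : H → H → Mu p L) g k)
  let c₁ : H → H → Lx L := fun g k => c₀ g k - (g • y₁ k - y₁ (g * k) + y₁ g)
  have hc₁ : ∀ g ∈ chiKer χ, ∀ k ∈ chiKer χ, c₁ g k = 0 := fun g hg k hk => by
    have h1 := congrArg muVal (congrFun (congrFun hy' ⟨g, hg⟩) ⟨k, hk⟩)
    simp only [Coh.d₁_apply, map_add, map_sub] at h1
    simp only [c₁, c₀, y₁, dif_pos hg, dif_pos hk, dif_pos (mul_mem hg hk)]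
    rw [sub_eq_zero]
    exact h1.symm
  have hcoc : ∀ (Y : H → Lx L) (c : H → H → Lx L),
      (∀ g k, c g k = c₀ g k - (g • Y k - Y (g * k) + Y g)) →
      ∀ g h j : H, g • c h j - c (g * h) j + c g (h * j) - c g h = 0 := fun Y c hc g h j => by
    have h1 := congrArg muVal (f.2.2 g h j)
    simp only [map_add, map_sub, map_zero] at h1
    rw [← h1, show muVal (g • (f : H → H → Mu p L) h j) = g • c₀ h j from rfl]
    simp only [hc, c₀, smul_add, smul_sub, mul_smul, mul_assoc]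
    abel
  have hc₁coc := hcoc y₁ c₁ fun _ _ => rfl
  -- the second correction: kill `(g, n)`
  let y₂ : H → Lx L := fun g => y₁ g - c₁ (r g) ((r g)⁻¹ * g)
  have hy₂ : Coh.IsConst₁ ((galLevels F L).restrict H) y₂ := by
    obtain ⟨W₁, hW₁, h₁⟩ := hy₁
    obtain ⟨W₂, hW₂, h₂⟩ := hrr
    refine ⟨(W₁ ⊓ W₂) ⊓ V, ((galLevels F L).restrict H).inf_ok
      (((galLevels F L).restrict H).inf_ok hW₁ hW₂) hV, fun g t ht => ?_⟩
    have e1 : (r (g * t))⁻¹ * (g * t) = (r g)⁻¹ * g * t := by rw [h₂ g t ht.1.2, mul_assoc]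
    have e2 : (f : H → H → Mu p L) (r g) ((r g)⁻¹ * g * t) =
        (f : H → H → Mu p L) (r g) ((r g)⁻¹ * g) := by
      simpa using hfV (r g) ((r g)⁻¹ * g) 1 (one_mem _) t ht.2
    simp only [y₂, c₁, c₀]
    rw [e1, h₂ g t ht.1.2, h₁ g t ht.1.1, e2, h₁ _ t ht.1.1, ← mul_assoc (r g),
      mul_inv_cancel_left, h₁ _ t ht.1.1]
  let c₂ : H → H → Lx L := fun g k => c₀ g k - (g • y₂ k - y₂ (g * k) + y₂ g)
  have hc₂coc := hcoc y₂ c₂ fun _ _ => rfl
  have hc11 : c₁ 1 1 = 0 := hc₁ 1 (one_mem _) 1 (one_mem _)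
  have hc1g : ∀ g, c₁ 1 g = 0 := fun g => by
    have h1 := hc₁coc 1 1 g
    simpa only [one_mul, one_smul, hc11, sub_self, zero_add, sub_zero] using h1
  have hcg1 : ∀ g, c₁ g 1 = 0 := fun g => by
    have h1 := hc₁coc g 1 1
    simpa only [one_mul, mul_one, smul_zero, hc11, zero_sub, neg_add_cancel, sub_zero,
      neg_eq_zero] using h1
  have hy₂n : ∀ n ∈ chiKer χ, y₂ n = y₁ n := fun n hn => by
    simp only [y₂, hrn n hn, hc1g, sub_zero]
  have hy₂r : ∀ g, y₂ (r g) = y₁ (r g) := fun g => by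
    have h1 : r (r g) = r g := by
      simp only [r, s, chiVal_gen_pow, Nat.mod_eq_of_lt (chiVal_lt χ g)]
    simp only [y₂, h1, inv_mul_cancel, hcg1, sub_zero]
  have hc₂n : ∀ g ∈ chiKer χ, ∀ k ∈ chiKer χ, c₂ g k = 0 := fun g hg k hk => by
    simp only [c₂, hy₂n g hg, hy₂n k hk, hy₂n _ (mul_mem hg hk)]
    exact hc₁ g hg k hk
  have hc₂r : ∀ g, ∀ n ∈ chiKer χ, c₂ (r g) n = 0 := fun g n hn => by
    have h1 : r (r g * n) = r g := by
      rw [hrm _ n hn]
      simp only [r, s, chiVal_gen_pow, Nat.mod_eq_of_lt (chiVal_lt χ g)]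
    simp only [c₂, hy₂n n hn, hy₂r g]
    simp only [y₂, h1, inv_mul_cancel_left]
    simp only [c₁]
    abel
  have hc₂gn : ∀ g, ∀ n ∈ chiKer χ, c₂ g n = 0 := fun g n hn => by
    have h1 := hc₂coc (r g) ((r g)⁻¹ * g) n
    rw [mul_inv_cancel_left, hc₂n _ (hr g) n hn, hc₂r g _ (mul_mem (hr g) hn),
      hc₂r g _ (hr g)] at h1
    simpa using h1
  have hc₂h : ∀ g h, ∀ n ∈ chiKer χ, c₂ g (h * n) = c₂ g h := fun g h n hn => by
    have h1 := hc₂coc g h n
    rw [hc₂gn h n hn,
      hc₂gn _ n hn, smul_zero, sub_zero, zero_add, sub_eq_zero] at h1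
    exact h1
  have hc₂g : ∀ g h, ∀ n ∈ chiKer χ, c₂ (g * n) h = g • c₂ n h + c₂ g h := fun g h n hn => by
    have h1 := hc₂coc g n h
    rw [hc₂gn g n hn, sub_zero,
      show n * h = h * (h⁻¹ * n * h⁻¹⁻¹) by group,
      hc₂h g h _ ((chiKer_normal χ).conj_mem n hn h⁻¹)] at h1
    rw [← sub_eq_zero, ← neg_eq_zero, ← h1]
    abel
  have hc₀c : Coh.IsConst₂ ((galLevels F L).restrict H) c₀ :=
    ⟨V, hV, fun g h t ht t' ht' => congrArg muVal (hfV g h t ht t' ht')⟩
  have hc₂c : Coh.IsConst₂ ((galLevels F L).restrict H) c₂ :=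
    hc₀c.comp₂ (Coh.isConst₂_d₁ hsm hy₂) (· - ·)
  -- the third correction: kill `(n, g)`
  have hw : ∀ i : ℕ, ∃ w : Lx L, ∀ n ∈ chiKer χ, c₂ n (s ^ i) = n • w - w := fun i => by
    obtain ⟨W, hW, hcW⟩ := hc₂c
    exact exists_eq_smul_sub_of_subgroup hH hN (fun g => c₂ g (s ^ i))
      ⟨W, hW, fun g t ht => by simpa using hcW g (s ^ i) t ht 1 (one_mem _)⟩
      fun g hg k hk => hc₂g g (s ^ i) k hk
  choose w hw using hw
  let y₃ : H → Lx L := fun g => if chiVal χ g = 0 then 0 else w (chiVal χ g)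
  have hy₃ : Coh.IsConst₁ ((galLevels F L).restrict H) y₃ :=
    (isConst₁_chiVal χ).comp fun i => if i = 0 then 0 else w i
  have hy₃n : ∀ n ∈ chiKer χ, y₃ n = 0 := fun n hn => by
    simp only [y₃, (chiVal_eq_zero χ).mpr hn, if_true]
  let y₄ : H → Lx L := fun g => y₂ g + y₃ g
  have hy₄ : Coh.IsConst₁ ((galLevels F L).restrict H) y₄ := hy₂.comp₂ hy₃ (· + ·)
  let c₃ : H → H → Lx L := fun g k => c₀ g k - (g • y₄ k - y₄ (g * k) + y₄ g)
  have hc₃e : ∀ g k, c₃ g k = c₂ g k - (g • y₃ k - y₃ (g * k) + y₃ g) := fun g k => by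
    simp only [c₃, c₂, y₄, smul_add]
    abel
  have hc₃r : ∀ g, ∀ n ∈ chiKer χ, c₃ g n = 0 := fun g n hn => by
    rw [hc₃e, hc₂gn g n hn, hy₃n n hn, smul_zero,
      show y₃ (g * n) = y₃ g by simp only [y₃, chiVal_mul_ker_right χ hn]]
    abel
  have hc₃l : ∀ n ∈ chiKer χ, ∀ g, c₃ n g = 0 := fun n hn g => by
    rw [hc₃e, hy₃n n hn, show y₃ (n * g) = y₃ g by simp only [y₃, chiVal_mul_ker_left χ hn],
      add_zero, sub_eq_zero]
    by_cases h0 : chiVal χ g = 0
    · simp only [y₃, h0, if_true, smul_zero, sub_zero]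
      exact hc₂gn n g ((chiVal_eq_zero χ).mp h0)
    · simp only [y₃, h0, if_false]
      rw [← hw _ n hn]
      conv_lhs => rw [← mul_inv_cancel_left (r g) g, hc₂h n (r g) _ (hr g)]
  have hc₃coc := hcoc y₄ c₃ fun _ _ => rfl
  have hc₃h : ∀ g h, ∀ n ∈ chiKer χ, c₃ g (h * n) = c₃ g h := fun g h n hn => by
    have h1 := hc₃coc g h n
    rw [hc₃r h n hn,
      hc₃r _ n hn, smul_zero, sub_zero, zero_add, sub_eq_zero] at h1
    exact h1
  have hc₃g : ∀ g h, ∀ n ∈ chiKer χ, c₃ (g * n) h = c₃ g h := fun g h n hn => by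
    have h1 := hc₃coc g n h
    rw [hc₃r g n hn,
      hc₃l n hn h, smul_zero, sub_zero, zero_sub, show n * h = h * (h⁻¹ * n * h⁻¹⁻¹) by group,
      hc₃h g h _ ((chiKer_normal χ).conj_mem n hn h⁻¹)] at h1
    exact neg_add_eq_zero.mp h1
  have hc₃fix : ∀ n ∈ chiKer χ, ∀ g h, n • c₃ g h = c₃ g h := fun n hn g h => by
    have h1 := hc₃coc n g h
    rw [hc₃l n hn g,
      hc₃l n hn (g * h), sub_zero, add_zero, show n * g = g * (g⁻¹ * n * g⁻¹⁻¹) by group,
      hc₃g g h _ ((chiKer_normal χ).conj_mem n hn g⁻¹), sub_eq_zero] at h1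
    exact h1
  have hC : ∀ g h, c₃ g h = c₃ (r g) (r h) := fun g h => by
    conv_lhs => rw [← mul_inv_cancel_left (r g) g, ← mul_inv_cancel_left (r h) h,
      hc₃g _ _ _ (hr g), hc₃h _ _ _ (hr h)]
  -- telescoping
  let S : ℕ → Lx L := fun k => ∑ i ∈ Finset.range k, c₃ (s ^ i) s
  have hSfix : ∀ k, ∀ n ∈ chiKer χ, n • S k = S k := fun k n hn => by
    simp only [S, Finset.smul_sum]
    exact Finset.sum_congr rfl fun i _ => hc₃fix n hn _ _
  have hsum : ∀ a b : ℕ, c₃ (s ^ a) (s ^ b) = S (a + b) - S a - s ^ a • S b := by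
    intro a b
    induction b with
    | zero =>
      simp only [S, pow_zero, Finset.range_zero, Finset.sum_empty, smul_zero, add_zero, sub_self]
      exact hc₃r _ 1 (one_mem _)
    | succ b ih =>
      have h1 := hc₃coc (s ^ a) (s ^ b) s
      rw [← pow_add, ← pow_succ, ih] at h1
      simp only [S, ← add_assoc a b 1, Finset.sum_range_succ, smul_add] at h1 ⊢
      rw [← sub_eq_zero, ← h1]
      abel
  set β := S p with hβ
  have hSp : ∀ k, S (p + k) = β + S k := fun k => by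
    simp only [hβ, S, Finset.sum_range_add]
    congr 1
    refine Finset.sum_congr rfl fun i _ => ?_
    rw [show s ^ (p + i) = s ^ i * s ^ p by rw [← pow_add, add_comm],
      hc₃g _ _ _ (gen_pow_prime_mem χ hχ)]
  have hβs : s • β = β := by
    have h1 := hsum 1 p
    rw [hc₃r _ _ (gen_pow_prime_mem χ hχ), pow_one, add_comm 1 p, hSp 1] at h1
    rw [← sub_eq_zero, ← neg_eq_zero]
    conv_rhs => rw [h1]
    rw [hβ]
    abel
  have hβfix : β ∈ Coh.inv H (Lx L) := fun g => by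
    rw [smul_eq_gen_pow_smul χ hχ (hSfix p)]
    induction chiVal χ g with
    | zero => rw [pow_zero, one_smul]
    | succ i ih => rw [pow_succ, mul_smul, hβs, ih]
  refine ⟨⟨β, hβfix⟩, (mk_eq_mk_of_units hH
    (Z := fun g => y₄ g + cupPot χ ⟨β, hβfix⟩ g - S (chiVal χ g))
    ((hy₄.comp₂ (isConst₁_cupPot χ _) (· + ·)).comp₂ ((isConst₁_chiVal χ).comp S) (· - ·))
    fun g k => ?_).symm⟩
  have h1 : muVal ((cupChiCocycle χ ⟨β, hβfix⟩ : H → H → Mu p L) g k) +
      (g • cupPot χ ⟨β, hβfix⟩ k - cupPot χ ⟨β, hβfix⟩ (g * k) + cupPot χ ⟨β, hβfix⟩ g) =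
      ((chiVal χ g + chiVal χ k) / p) • β := muVal_cupChiCocycle_add χ ⟨β, hβfix⟩ g k
  have key : ∀ m l : ℕ, S (l + p * m) = m • β + S l := by
    intro m l
    induction m with
    | zero => simp
    | succ m ih =>
      rw [show l + p * (m + 1) = p + (l + p * m) by ring, hSp, ih, succ_nsmul']
      abel
  have h2 : c₃ g k = S (chiVal χ g + chiVal χ k) - S (chiVal χ g) - g • S (chiVal χ k) := by
    rw [hC, hsum, smul_eq_gen_pow_smul χ hχ (hSfix _) g]
  rw [← Nat.mod_add_div (chiVal χ g + chiVal χ k) p, key, ← chiVal_mul, ← h1] at h2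
  show c₀ g k = _
  simp only [c₃] at h2
  rw [eq_add_of_sub_eq h2]
  simp only [smul_add, smul_sub, cupChiCocycle]
  abel

end Units

section Characters

variable {N : Subgroup H}

/-- A normal open subgroup of index `p` is the kernel of a character. -/
theorem exists_char_of_index_eq [N.Normal] (hN : ((galLevels F L).restrict H).ok N)
    (hidx : N.index = p) : ∃ χ : Char1 p H, χ ≠ 0 ∧ chiKer χ = N := by
  have hcard : Nat.card (H ⧸ N) = p := hidx
  have : IsCyclic (H ⧸ N) := isCyclic_of_prime_card hcard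
  obtain ⟨γ, hγ⟩ := IsCyclic.exists_generator (α := H ⧸ N)
  let e := zmodMulEquivOfGenerator hγ hcard
  let χf : H → Zp p := fun g => Zp.of (Multiplicative.toAdd (e.symm (g : H ⧸ N)))
  have hker : ∀ g : H, χf g = 0 ↔ g ∈ N := fun g => by
    simp only [χf, AddEquiv.map_eq_zero_iff]
    rw [← QuotientGroup.eq_one_iff (N := N) g, ← map_eq_one_iff e.symm e.symm.injective]
    rfl
  have hmul : ∀ g h : H, χf (g * h) = χf g + χf h := fun g h => by
    simp only [χf, QuotientGroup.mk_mul, map_mul, toAdd_mul, map_add]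
  refine ⟨⟨χf, ⟨N, hN, fun g n hn => ?_⟩, ?_⟩, fun h => ?_, Subgroup.ext hker⟩
  · rw [hmul, (hker n).mpr hn, add_zero]
  · funext g h
    simp only [Coh.d₁_apply, hmul, Zp.smul_eq, Pi.zero_apply]
    abel
  · obtain ⟨g, rfl⟩ := QuotientGroup.mk_surjective γ
    have h1 : χf g = 0 := congrFun (congrArg Subtype.val h) g
    rw [hker, ← QuotientGroup.eq_one_iff] at h1
    have : Subsingleton (H ⧸ N) := ⟨fun a b => by
      have hh : ∀ a : H ⧸ N, a = 1 := fun a => by
        obtain ⟨i, rfl⟩ := Subgroup.mem_zpowers_iff.mp (hγ a)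
        rw [h1, one_zpow]
      rw [hh a, hh b]⟩
    rw [Nat.card_of_subsingleton (1 : H ⧸ N)] at hcard
    exact (Fact.out : p.Prime).one_lt.ne hcard

/-- A class killed by restriction to a normal subgroup of index `p` is a symbol. -/
theorem exists_cupChi_of_res_eq_zero [IsAlgClosed L] (hH : (galLevels F L).ok H) [N.Normal]
    (hN : ((galLevels F L).restrict H).ok N) (hidx : N.index = p) (x : H2μ p H)
    (hx : Coh.res₂ N x = 0) :
    ∃ (χ : Char1 p H) (a : Coh.inv H (Lx L)), χ ≠ 0 ∧ chiKer χ = N ∧ cupChi χ a = x := by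
  obtain ⟨χ, hχ, rfl⟩ := exists_char_of_index_eq hN hidx
  obtain ⟨a, ha⟩ := exists_cupChi_eq χ hχ hH x hx
  exact ⟨χ, a, hχ, rfl, ha⟩

end Characters

section ResLE

variable {K : Subgroup (L ≃ₐ[F] L)}

lemma compat_inclusion (h : K ≤ H) :
    ((galLevels F L).restrict K).Compat ((galLevels F L).restrict H) (Subgroup.inclusion h) :=
  fun _ ⟨V, hV, hVU⟩ => ⟨V, hV, fun g hg => hVU (show (g : L ≃ₐ[F] L) ∈ V from hg)⟩

omit [Fact (Nat.Prime p)] [Normal F L] in
lemma isEquivariant_inclusion (h : K ≤ H) :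
    Coh.IsEquivariant (A := Mu p L) (B := Mu p L) (Subgroup.inclusion h) (AddMonoidHom.id _) :=
  fun _ _ => rfl

/-- Restriction between open subgroups. -/
def resLE₂ (h : K ≤ H) : H2μ p H →+ H2μ p K :=
  Coh.H2.map (compat_inclusion h) (isEquivariant_inclusion h)

omit [Fact (Nat.Prime p)] in
lemma res₂_subgroupOf_eq_zero (h : K ≤ H) {x : H2μ p H} (hx : resLE₂ h x = 0) :
    Coh.res₂ (K.subgroupOf H) x = 0 := by
  let f : K.subgroupOf H →* K := (Subgroup.subgroupOfEquivOfLe h).toMonoidHom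
  have hf : (((galLevels F L).restrict H).restrict (K.subgroupOf H)).Compat
      ((galLevels F L).restrict K) f := fun _ ⟨V, hV, hVU⟩ =>
    ⟨V.subgroupOf H, ⟨V, hV, le_rfl⟩, fun g hg => hVU hg⟩
  have hfe : Coh.IsEquivariant (A := Mu p L) (B := Mu p L) f (AddMonoidHom.id _) := fun _ _ => rfl
  have h1 := congrArg (Coh.H2.map hf hfe) hx
  rw [map_zero, resLE₂, Coh.H2.map_map] at h1
  obtain ⟨u, rfl⟩ := Coh.H2.mk_surjective x
  exact h1

/-- The subgroup version of `exists_cupChi_of_res_eq_zero`. -/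
theorem exists_cupChi_of_resLE_eq_zero [IsAlgClosed L] (hH : (galLevels F L).ok H)
    (hK : (galLevels F L).ok K) (h : K ≤ H) (hn : (K.subgroupOf H).Normal)
    (hidx : K.relIndex H = p) (x : H2μ p H) (hx : resLE₂ h x = 0) :
    ∃ (χ : Char1 p H) (a : Coh.inv H (Lx L)),
      χ ≠ 0 ∧ chiKer χ = K.subgroupOf H ∧ cupChi χ a = x :=
  exists_cupChi_of_res_eq_zero hH ⟨K, hK, le_rfl⟩ hidx x (res₂_subgroupOf_eq_zero h hx)

end ResLE

end Fermat.Agent.Duality

end
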