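import Mathlib.GroupTheory.Index
import Mathlib.GroupTheory.QuotientGroup.Basic
import Mathlib.Tactic.Ring

/-!
Herbrand quotients without homology: indices attached to endomorphisms of an abelian group do not
change on passing to a subgroup of finite index.
-/

set_option autoImplicit false

namespace Fermat.Agent.Duality

open Subgroup

variable {A : Type*} [CommGroup A]

/-- The image of a subgroup has index in the full image equal to the index of its saturation. -/
@[to_additive addRelIndex_map_range]
theorem relIndex_map_range (f : A →* A) (B : Subgroup A) :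
    (B.map f).relIndex f.range = (B ⊔ f.ker).index := by
  rw [MonoidHom.range_eq_map, relIndex_map_map, top_sup_eq, relIndex_top_right]

/-- Splitting the index of `B` along a second subgroup. -/
@[to_additive index_sup_mul_addRelIndex]
theorem index_sup_mul_relIndex (B K : Subgroup A) :
    (B ⊔ K).index * B.relIndex K = B.index := by
  rw [← relIndex_sup_right (K := B) (H := K), sup_comm K B, mul_comm,
    relIndex_mul_index (le_sup_left : B ≤ B ⊔ K)]

/-- `[A : f A] = [ker f : ker f ∩ B] * [B : f B]` for `B` of finite index, `f B ≤ B`. -/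
@[to_additive addIndex_range_eq]
theorem index_range_eq (f : A →* A) (B : Subgroup A) (hB : B.index ≠ 0) (hfB : B.map f ≤ B) :
    f.range.index = B.relIndex f.ker * (B.map f).relIndex B := by
  have h1 : (B.map f).relIndex f.range * f.range.index = (B.map f).index :=
    relIndex_mul_index (MonoidHom.range_eq_map f ▸ map_mono le_top)
  have h2 : (B.map f).relIndex B * B.index = (B.map f).index := relIndex_mul_index hfB
  rw [relIndex_map_range] at h1
  rw [← index_sup_mul_relIndex B f.ker] at h2
  have h0 : (B ⊔ f.ker).index ≠ 0 :=
    fun h => hB (by rw [← index_sup_mul_relIndex B f.ker, h, zero_mul])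
  refine Nat.eq_of_mul_eq_mul_left (Nat.pos_of_ne_zero h0) ?_
  rw [h1, ← h2]
  ring

/-- **Invariance of the Herbrand quotient**: for commuting endomorphisms `f`, `g` with
`f ∘ g = g ∘ f = 1` the ratio `[ker f : g A] / [ker g : f A]` does not change on a stable subgroup
of finite index (stated without division). -/
@[to_additive addRelIndex_range_ker_mul]
theorem relIndex_range_ker_mul (f g : A →* A) (hfg : ∀ a, f (g a) = 1) (hgf : ∀ a, g (f a) = 1)
    (B : Subgroup A) (hB : B.index ≠ 0) (hfB : B.map f ≤ B) (hgB : B.map g ≤ B) :
    g.range.relIndex f.ker * (B.map f).relIndex (g.ker ⊓ B) =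
      f.range.relIndex g.ker * (B.map g).relIndex (f.ker ⊓ B) := by
  have key : ∀ f g : A →* A, (∀ a, f (g a) = 1) → B.map g ≤ B →
      g.range.relIndex f.ker * (B ⊔ g.ker).index =
        B.relIndex f.ker * (B.map g).relIndex (f.ker ⊓ B) := by
    intro f g hfg hgB
    have hle : g.range ≤ f.ker := by
      rintro _ ⟨a, rfl⟩
      exact MonoidHom.mem_ker.2 (hfg a)
    have hle' : B.map g ≤ g.range := MonoidHom.range_eq_map g ▸ map_mono le_top
    rw [← relIndex_map_range g B, mul_comm, relIndex_mul_relIndex _ _ _ hle' hle,
      ← relIndex_mul_relIndex (B.map g) (f.ker ⊓ B) f.ker (le_inf (hle'.trans hle) hgB)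
        inf_le_left, inf_relIndex_left, mul_comm]
  have h1 := key f g hfg hgB
  have h2 := key g f hgf hfB
  have i1 := index_sup_mul_relIndex B f.ker
  have i2 := index_sup_mul_relIndex B g.ker
  refine Nat.eq_of_mul_eq_mul_left (Nat.pos_of_ne_zero hB) ?_
  calc B.index * (g.range.relIndex f.ker * (B.map f).relIndex (g.ker ⊓ B))
      = (g.range.relIndex f.ker * (B ⊔ g.ker).index) *
          (B.relIndex g.ker * (B.map f).relIndex (g.ker ⊓ B)) := by rw [← i2]; ring
    _ = (B.relIndex f.ker * (B.map g).relIndex (f.ker ⊓ B)) *
          (f.range.relIndex g.ker * (B ⊔ f.ker).index) := by rw [h1, h2]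
    _ = B.index * (f.range.relIndex g.ker * (B.map g).relIndex (f.ker ⊓ B)) := by
          rw [← i1]; ring

end Fermat.Agent.Duality
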