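import Fermat.Agent.Duality.Coh.Cup
import Fermat.Prelude.Def_GroupCohomology_ContinuousUnramified

/-!
# Shared conventions for the duality modules

Levels of absolute Galois groups, the multiplicative coefficient modules, Kummer cocycles and the
local fields attached to embeddings.
-/

set_option autoImplicit false

noncomputable section

namespace Fermat.Agent.Duality

open IntermediateField

section Levels

variable (F L : Type) [Field F] [Field L] [Algebra F L] [Normal F L]

omit [Normal F L] in
/-- The fixing subgroup of a finite extension has finite index. -/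
lemma finiteIndex_fixingSubgroup (E : IntermediateField F L) [FiniteDimensional F E] :
    E.fixingSubgroup.FiniteIndex := by
  let f : (L ≃ₐ[F] L) ⧸ E.fixingSubgroup → (E →ₐ[F] L) := fun x =>
    Quotient.liftOn' x (fun σ => (σ : L →ₐ[F] L).comp E.val) fun σ τ h => by
      rw [QuotientGroup.leftRel_apply, IntermediateField.mem_fixingSubgroup_iff] at h
      refine AlgHom.ext fun x => ?_
      show σ (x : L) = τ (x : L)
      have h1 := congrArg σ (h (x : L) x.2)
      rw [AlgEquiv.mul_apply, AlgEquiv.aut_inv σ, AlgEquiv.apply_symm_apply] at h1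
      exact h1.symm
  have hf : Function.Injective f := by
    intro a b hab
    induction a using Quotient.inductionOn' with | _ σ =>
    induction b using Quotient.inductionOn' with | _ τ =>
    refine Quotient.sound' ?_
    rw [QuotientGroup.leftRel_apply, IntermediateField.mem_fixingSubgroup_iff]
    intro x hx
    have h1 : σ x = τ x := AlgHom.congr_fun hab ⟨x, hx⟩
    rw [AlgEquiv.mul_apply, ← h1, AlgEquiv.aut_inv σ]
    exact σ.symm_apply_apply x
  have : Finite ((L ≃ₐ[F] L) ⧸ E.fixingSubgroup) := Finite.of_injective f hf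
  exact Subgroup.finiteIndex_of_finite_quotient

/-- Levels of a Galois group: fixing subgroups of finite subextensions. -/
def galLevels : Coh.Levels (L ≃ₐ[F] L) where
  ok U := ∃ E : IntermediateField F L, FiniteDimensional F E ∧ E.fixingSubgroup ≤ U
  top_ok := ⟨⊥, inferInstance, le_top⟩
  inf_ok := fun ⟨E, hE, h⟩ ⟨E', hE', h'⟩ => by
    have := hE; have := hE'
    exact ⟨E ⊔ E', inferInstance, le_inf
      ((IntermediateField.fixingSubgroup_antitone le_sup_left).trans h)
      ((IntermediateField.fixingSubgroup_antitone le_sup_right).trans h')⟩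
  mono := fun ⟨E, hE, h⟩ h' => ⟨E, hE, h.trans h'⟩
  exists_normal := fun ⟨E, hE, h⟩ => by
    have := hE
    refine ⟨(IntermediateField.normalClosure F E L).fixingSubgroup,
      ⟨_, inferInstance, le_rfl⟩, ?_, (IntermediateField.fixingSubgroup_antitone ?_).trans h⟩
    · have : Normal F (IntermediateField.normalClosure F E L) := normalClosure.normal F E L
      rw [← IntermediateField.restrictNormalHom_ker]
      exact MonoidHom.normal_ker _
    · exact IntermediateField.le_normalClosure E
  finiteIndex := fun ⟨E, hE, h⟩ => by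
    have := hE
    have := finiteIndex_fixingSubgroup F L E
    exact Subgroup.finiteIndex_of_le h

variable {F L}

lemma galLevels_ok_fixingSubgroup (E : IntermediateField F L) [FiniteDimensional F E] :
    (galLevels F L).ok E.fixingSubgroup := ⟨E, inferInstance, le_rfl⟩

end Levels

/-- The algebraic closure of `ℚ`. -/
abbrev Qbar : Type := AlgebraicClosure ℚ

/-- The absolute Galois group of `ℚ`. -/
abbrev GalQ : Type := Qbar ≃ₐ[ℚ] Qbar

section Coefficients

variable (p : ℕ) (L : Type) [Field L]

/-- The units of `L`, written additively. -/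
abbrev Lx : Type := Additive Lˣ

/-- The `p`-th roots of unity of `L`, written additively. -/
def Mu : Type := Additive (rootsOfUnity p L)

instance muAddCommGroup : AddCommGroup (Mu p L) :=
  inferInstanceAs (AddCommGroup (Additive (rootsOfUnity p L)))

variable {p L} {F : Type} [Field F] [Algebra F L]

instance lxAction : DistribMulAction (L ≃ₐ[F] L) (Lx L) where
  smul σ x := Additive.ofMul (Units.map (σ : L →* L) x.toMul)
  one_smul _ := Additive.toMul.injective (Units.ext rfl)
  mul_smul _ _ _ := Additive.toMul.injective (Units.ext rfl)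
  smul_zero σ := Additive.toMul.injective (Units.ext (map_one σ))
  smul_add σ _ _ := Additive.toMul.injective (Units.ext (map_mul σ _ _))

/-- The inclusion of the roots of unity in the units. -/
def muVal : Mu p L →+ Lx L := MonoidHom.toAdditive (rootsOfUnity p L).subtype

lemma muVal_injective : Function.Injective (muVal : Mu p L → Lx L) := fun _ _ h =>
  Additive.toMul.injective (Subtype.ext (Additive.ofMul.injective h))

/-- Build an element of `Mu` from a unit with trivial `p`-th power. -/
def muMk (u : Lx L) (hu : p • u = 0) : Mu p L :=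
  Additive.ofMul ⟨u.toMul, by
    rw [mem_rootsOfUnity]
    exact Additive.ofMul.injective hu⟩

lemma muVal_muMk (u : Lx L) (hu : p • u = 0) : muVal (muMk u hu) = u := rfl

lemma nsmul_muVal (x : Mu p L) : p • muVal x = 0 :=
  Additive.toMul.injective ((mem_rootsOfUnity p _).mp x.toMul.2)

lemma nsmul_smul_lx (n : ℕ) (σ : L ≃ₐ[F] L) (x : Lx L) : n • σ • x = σ • n • x :=
  (smul_comm σ n x).symm

instance muAction : DistribMulAction (L ≃ₐ[F] L) (Mu p L) where
  smul σ x := muMk (σ • muVal x) (by rw [nsmul_smul_lx, nsmul_muVal, smul_zero])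
  one_smul x := muVal_injective (one_smul (L ≃ₐ[F] L) (muVal x))
  mul_smul σ τ x := muVal_injective (mul_smul σ τ (muVal x))
  smul_zero σ := muVal_injective (smul_zero σ)
  smul_add σ x y := muVal_injective (smul_add σ (muVal x) (muVal y))

lemma muVal_smul (σ : L ≃ₐ[F] L) (x : Mu p L) : muVal (σ • x) = σ • muVal x := rfl

variable [Normal F L]

lemma isSmooth_Lx : Coh.IsSmooth (galLevels F L) (Lx L) := fun x => by
  let E : IntermediateField F L := F⟮((x.toMul : Lˣ) : L)⟯
  have : FiniteDimensional F E :=
    IntermediateField.adjoin.finiteDimensional (Normal.isIntegral inferInstance _)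
  refine ⟨E.fixingSubgroup, galLevels_ok_fixingSubgroup E, fun s hs => ?_⟩
  refine Additive.toMul.injective (Units.ext ?_)
  exact (IntermediateField.mem_fixingSubgroup_iff E s).mp hs _
    (IntermediateField.mem_adjoin_simple_self F _)

lemma isSmooth_Mu : Coh.IsSmooth (galLevels F L) (Mu p L) := fun x => by
  obtain ⟨U, hU, h⟩ := isSmooth_Lx (F := F) (muVal x)
  exact ⟨U, hU, fun s hs => muVal_injective ((muVal_smul s x).trans (h s hs))⟩

lemma isSmooth_restrict {G : Type} [Group G] {𝓛 : Coh.Levels G} {A : Type} [AddCommGroup A]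
    [DistribMulAction G A] (h : Coh.IsSmooth 𝓛 A) (H : Subgroup G) :
    Coh.IsSmooth (𝓛.restrict H) A := fun a => by
  obtain ⟨U, hU, h'⟩ := h a
  exact ⟨U.subgroupOf H, ⟨U, hU, le_rfl⟩, fun s hs => h' (s : G) hs⟩

/-- `H¹` of `μ_p` for an open subgroup. -/
abbrev H1μ (p : ℕ) (H : Subgroup (L ≃ₐ[F] L)) : Type :=
  Coh.H1 ((galLevels F L).restrict H) (Mu p L)

/-- `H²` of `μ_p` for an open subgroup. -/
abbrev H2μ (p : ℕ) (H : Subgroup (L ≃ₐ[F] L)) : Type :=
  Coh.H2 ((galLevels F L).restrict H) (Mu p L)

section Kummer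

variable [IsAlgClosed L]

/-- A chosen `p`-th root in the units. -/
def rootP (p : ℕ) (x : Lx L) : Lx L :=
  Classical.epsilon fun y => p • y = x

lemma nsmul_rootP {p : ℕ} (hp : 0 < p) (x : Lx L) : p • rootP p x = x := by
  refine Classical.epsilon_spec (p := fun y => p • y = x) ?_
  obtain ⟨z, hz⟩ := IsAlgClosed.exists_pow_nat_eq ((x.toMul : Lˣ) : L) hp
  have hz0 : z ≠ 0 := fun h => x.toMul.ne_zero (by rw [← hz, h, zero_pow hp.ne'])
  exact ⟨Additive.ofMul (Units.mk0 z hz0), Additive.toMul.injective (Units.ext hz)⟩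

variable (H : Subgroup (L ≃ₐ[F] L)) (hp : 0 < p)

include hp

/-- The Kummer cocycle of a unit fixed by `H`. -/
def kummerFun (x : Coh.inv H (Lx L)) : Coh.Z1 ((galLevels F L).restrict H) (Mu p L) :=
  ⟨fun σ => muMk (σ • rootP p (x : Lx L) - rootP p (x : Lx L)) (by
      rw [nsmul_sub, Subgroup.smul_def, nsmul_smul_lx, nsmul_rootP hp, ← Subgroup.smul_def, x.2 σ,
        sub_self]), by
    obtain ⟨U, hU, h⟩ := isSmooth_restrict (isSmooth_Lx (F := F) (L := L)) H (rootP p (x : Lx L))
    refine ⟨U, hU, fun g s hs => muVal_injective ?_⟩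
    show (g * s) • rootP p (x : Lx L) - _ = g • rootP p (x : Lx L) - _
    rw [mul_smul, h s hs], by
    funext g h
    refine muVal_injective ?_
    simp only [Coh.d₁_apply, map_add, map_sub, Pi.zero_apply, map_zero]
    show (g • (h • rootP p (x : Lx L) - _)) - ((g * h) • rootP p (x : Lx L) - _) +
      (g • rootP p (x : Lx L) - _) = 0
    rw [mul_smul, smul_sub]
    abel⟩

lemma muVal_kummerFun (x : Coh.inv H (Lx L)) (σ : H) :
    muVal ((kummerFun H hp x : H → Mu p L) σ) = σ • rootP p (x : Lx L) - rootP p (x : Lx L) := rfl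

/-- Any `p`-th root gives the same class. -/
lemma kummerFun_eq (x : Coh.inv H (Lx L)) {r : Lx L} (hr : p • r = x)
    {z : Coh.Z1 ((galLevels F L).restrict H) (Mu p L)}
    (hz : ∀ σ : H, muVal ((z : H → Mu p L) σ) = σ • r - r) :
    Coh.H1.mk z = Coh.H1.mk (kummerFun H hp x) := by
  refine Coh.H1.mk_eq_mk.mpr ⟨muMk (r - rootP p (x : Lx L)) (by
    rw [nsmul_sub, hr, nsmul_rootP hp, sub_self]), fun σ => muVal_injective ?_⟩
  rw [map_add, map_sub, hz, muVal_kummerFun]
  show σ • r - r = _ + (σ • (r - rootP p (x : Lx L)) - (r - rootP p (x : Lx L)))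
  rw [smul_sub]
  abel

/-- The Kummer map. -/
def kummer : Coh.inv H (Lx L) →+ H1μ p H where
  toFun x := Coh.H1.mk (kummerFun H hp x)
  map_zero' := by
    rw [← kummerFun_eq H hp 0 (r := 0) (by simp) (z := 0) (fun σ => by simp), map_zero]
  map_add' x y := by
    rw [← map_add]
    refine (kummerFun_eq H hp (x + y) (r := rootP p (x : Lx L) + rootP p (y : Lx L))
      (by rw [nsmul_add, nsmul_rootP hp, nsmul_rootP hp]; rfl) fun σ => ?_).symm
    rw [AddSubgroup.coe_add, Pi.add_apply, map_add, muVal_kummerFun, muVal_kummerFun, smul_add]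
    abel

end Kummer

end Coefficients

section Local

variable (q : ℕ) [Fact q.Prime]

/-- The local Galois group at `q`. -/
abbrev GalLoc : Type := PadicAlgCl q ≃ₐ[ℚ_[q]] PadicAlgCl q

/-- The local field generated by the image of a number field under an embedding. -/
def locField {K : Type} [Field K] [Algebra ℚ K] (τ : K →ₐ[ℚ] PadicAlgCl q) :
    IntermediateField ℚ_[q] (PadicAlgCl q) :=
  IntermediateField.adjoin ℚ_[q] (Set.range τ)

end Local

end Fermat.Agent.Duality

end
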