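import Fermat.Agent.Duality.Setup

/-!
# Kummer theory for open subgroups of a Galois group
-/

set_option autoImplicit false

noncomputable section

namespace Fermat.Agent.Duality

variable {F L : Type} [Field F] [Field L] [Algebra F L] [Normal F L]

/-- Hilbert 90 for level-constant cocycles on an open subgroup with values in the units. -/
theorem exists_eq_smul_sub (H : Subgroup (L ≃ₐ[F] L)) (hH : (galLevels F L).ok H) (u : H → Lx L)
    (hu : Coh.IsConst₁ ((galLevels F L).restrict H) u)
    (hc : ∀ g h : H, u (g * h) = g • u h + u g) : ∃ r : Lx L, ∀ g : H, u g = g • r - r := by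
  classical
  obtain ⟨U, ⟨V, hV, hVU⟩, hu⟩ := hu
  obtain ⟨E, hE, hEle⟩ := (galLevels F L).inf_ok hH hV
  have := hE
  set E' := IntermediateField.normalClosure F E L with hE'
  have : Normal F E' := normalClosure.normal F E L
  have hle : E'.fixingSubgroup ≤ H ⊓ V :=
    (IntermediateField.fixingSubgroup_antitone (IntermediateField.le_normalClosure E)).trans hEle
  have hNn : E'.fixingSubgroup.Normal := by
    rw [← IntermediateField.restrictNormalHom_ker]
    exact MonoidHom.normal_ker _
  set N : Subgroup H := E'.fixingSubgroup.subgroupOf H with hN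
  have hNu : ∀ g : H, ∀ s ∈ N, u (g * s) = u g := fun g s hs => hu g s (hVU (hle hs).2)
  have : N.FiniteIndex :=
    ((galLevels F L).restrict H).finiteIndex ⟨_, galLevels_ok_fixingSubgroup E', le_rfl⟩
  have := Fintype.ofFinite (H ⧸ N)
  -- values are fixed by the level
  have hfix : ∀ s ∈ N, ∀ g : H, s • u g = u g := fun s hs g => by
    have h0 : u s = 0 := by
      have h1 := hNu 1 s hs
      rw [one_mul] at h1
      have h2 := hc 1 1
      rw [one_mul, one_smul] at h2
      rw [h1]
      exact left_eq_add.mp h2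
    have h3 := hc s g
    have h4 : s * g = g * (g⁻¹ * s * g⁻¹⁻¹) := by group
    rw [h4, hNu g _ ((inferInstance : N.Normal).conj_mem s hs g⁻¹), h0, add_zero] at h3
    exact h3.symm
  let χ : H ⧸ N → E' →* L := fun x => (((x.out : H) : L ≃ₐ[F] L) : L →* L).comp
    (E'.val : E' →* L)
  have hχ : Function.Injective χ := fun x y hxy => by
    rw [← QuotientGroup.out_eq' x, ← QuotientGroup.out_eq' y, QuotientGroup.eq]
    show ((x.out⁻¹ * y.out : H) : L ≃ₐ[F] L) ∈ E'.fixingSubgroup
    rw [IntermediateField.mem_fixingSubgroup_iff]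
    intro e he
    have h1 : ((x.out : H) : L ≃ₐ[F] L) e = ((y.out : H) : L ≃ₐ[F] L) e :=
      DFunLike.congr_fun hxy ⟨e, he⟩
    rw [Subgroup.coe_mul, Subgroup.coe_inv, AlgEquiv.mul_apply, ← h1, AlgEquiv.aut_inv]
    exact AlgEquiv.symm_apply_apply _ e
  obtain ⟨e, he⟩ : ∃ e : E', ∑ x : H ⧸ N, ((u x.out).toMul : L) * χ x e ≠ 0 := by
    by_contra h
    simp only [not_exists, not_not] at h
    have hli := (linearIndependent_monoidHom E' L).comp χ hχ
    rw [Fintype.linearIndependent_iff] at hli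
    have h1 := hli (fun x => ((u x.out).toMul : L))
      (funext fun e => by simpa [Finset.sum_apply] using h e) ((1 : H) : H ⧸ N)
    exact Units.ne_zero _ h1
  set β : L := ∑ x : H ⧸ N, ((u x.out).toMul : L) * χ x e with hβ
  refine ⟨-Additive.ofMul (Units.mk0 β he), fun g => ?_⟩
  have key : ((u g).toMul : L) * ((g : L ≃ₐ[F] L) β) = β := by
    rw [hβ, map_sum, Finset.mul_sum]
    refine Fintype.sum_equiv (MulAction.toPerm g) _ _ fun x => ?_
    rw [MulAction.toPerm_apply, map_mul, ← mul_assoc]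
    obtain ⟨n, hn⟩ : ∃ n : N, (g • x).out = g * x.out * n := by
      obtain ⟨n, hn⟩ := QuotientGroup.mk_out_eq_mul N (g * x.out)
      refine ⟨n, ?_⟩
      rw [← hn]
      congr 1
      conv_lhs => rw [← QuotientGroup.out_eq' x]
      rfl
    have h1 : u (g • x).out = g • u x.out + u g := by rw [hn, hNu _ _ n.2, hc]
    have h2 : χ (g • x) e = (g : L ≃ₐ[F] L) (χ x e) := by
      show (((g • x).out : H) : L ≃ₐ[F] L) e = (g : L ≃ₐ[F] L) (((x.out : H) : L ≃ₐ[F] L) e)
      rw [hn, Subgroup.coe_mul, Subgroup.coe_mul, AlgEquiv.mul_apply, AlgEquiv.mul_apply]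
      erw [(IntermediateField.mem_fixingSubgroup_iff E' _).mp n.2 e e.2]
    rw [h1, h2, toMul_add, Units.val_mul, mul_comm ((u g).toMul : L)]
    rfl
  apply Additive.toMul.injective
  apply Units.ext
  rw [smul_neg, sub_neg_eq_add, toMul_add, toMul_neg, Units.val_mul, Units.val_inv_eq_inv_val]
  show ((u g).toMul : L) = ((g : L ≃ₐ[F] L) β)⁻¹ * β
  have hg0 : (g : L ≃ₐ[F] L) β ≠ 0 := (map_ne_zero _).mpr he
  field_simp
  linear_combination key

section

variable [IsAlgClosed L] {p : ℕ} (hp : 0 < p) (H : Subgroup (L ≃ₐ[F] L))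

/-- The Kummer map is surjective. -/
theorem kummer_surjective (hH : (galLevels F L).ok H) : Function.Surjective (kummer H hp) := by
  intro z
  obtain ⟨z, rfl⟩ := Coh.H1.mk_surjective z
  obtain ⟨r, hr⟩ := exists_eq_smul_sub H hH (fun g => muVal ((z : H → Mu p L) g))
    (z.2.1.comp muVal) (fun g h => by
      simp only [(Coh.mem_Z1.mp z.2).2 g h, map_add]
      rfl)
  have hfix : p • r ∈ Coh.inv H (Lx L) := fun g => by
    rw [Subgroup.smul_def, ← nsmul_smul_lx, ← Subgroup.smul_def, ← sub_eq_zero, ← nsmul_sub, ← hr,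
      nsmul_muVal]
  exact ⟨⟨p • r, hfix⟩, (kummerFun_eq H hp ⟨p • r, hfix⟩ rfl hr).symm⟩

/-- The kernel of the Kummer map consists of `p`-th powers. -/
theorem kummer_eq_zero_iff (x : Coh.inv H (Lx L)) :
    kummer H hp x = 0 ↔ ∃ y : Coh.inv H (Lx L), p • y = x := by
  constructor
  · intro h
    obtain ⟨a, ha⟩ := Coh.H1.mk_eq_zero.mp h
    refine ⟨⟨rootP p (x : Lx L) - muVal a, fun g => ?_⟩, Subtype.ext ?_⟩
    · have h1 := congrArg muVal (ha g)
      rw [map_sub, muVal_kummerFun] at h1
      have h2 : muVal (g • a) = g • muVal a := rfl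
      rw [h2] at h1
      rw [smul_sub, ← sub_eq_zero]
      rw [← sub_eq_zero] at h1
      rw [← h1]
      abel
    · show p • (rootP p (x : Lx L) - muVal a) = x
      rw [nsmul_sub, nsmul_rootP hp, nsmul_muVal, sub_zero]
  · rintro ⟨y, rfl⟩
    show Coh.H1.mk (kummerFun H hp (p • y)) = 0
    rw [← kummerFun_eq H hp (p • y) (r := (y : Lx L)) rfl (z := 0) (fun g => by
      rw [y.2 g, sub_self]; exact map_zero muVal), map_zero]

end

end Fermat.Agent.Duality

end
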