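import Fermat.Agent.Duality.SLevels
import Fermat.Agent.Duality.Coh.Reduction
import Fermat.Agent.Duality.Local.Symbol

/-!
# Places of an open subgroup over a finite set of primes, and the sum of the local pairings

For an open `H ≤ GalQ` fixing `μ_p` the places over `S` are indexed by double cosets.  `sumPair` is
the sum over these places of the invariants of the local cup products, and `IsLagrangianAt` says
that the image of `H¹` of `μ_p` for `S`-levels is its own orthogonal complement.
-/

set_option autoImplicit false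

noncomputable section

namespace Fermat.Agent.Duality

variable (p : ℕ) [Fact p.Prime]

/-- A choice of invariants at every prime. -/
abbrev InvFam : Type :=
  ∀ (q : ℕ) [Fact q.Prime],
    Coh.H2 (galLevels ℚ_[q] (PadicAlgCl q)) (Mu p (PadicAlgCl q)) →+ ZMod p

variable {p}

/-- Corestriction to the whole local group. -/
def corLoc (q : ℕ) [Fact q.Prime] (U : Subgroup (GalLoc q))
    (hU : (galLevels ℚ_[q] (PadicAlgCl q)).ok U) :
    H2μ p U →+ Coh.H2 (galLevels ℚ_[q] (PadicAlgCl q)) (Mu p (PadicAlgCl q)) :=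
  letI := (galLevels ℚ_[q] (PadicAlgCl q)).fintypeQuot hU
  Coh.cor₂ U hU

/-- The properties of the invariants that are used. -/
structure IsInvFamily (I : InvFam p) : Prop where
  bijective : ∀ (q : ℕ) [Fact q.Prime], Function.Bijective (I q)
  reciprocity : ∀ (S : Finset Nat.Primes), (⟨p, Fact.out⟩ : Nat.Primes) ∈ S →
    ∀ x : Coh.H2 (galLevelsS S) (Mu p Qbar), ∑ q : ↥S, (haveI : Fact (q.1 : ℕ).Prime := ⟨q.1.2⟩;
      I (q.1 : ℕ) (Coh.H2.map (compat_localGaloisToGlobal_S (q.1 : ℕ) S)
        (isEquivariant_muEmb (q.1 : ℕ)) x)) = 0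
  cor_injective : ∀ (q : ℕ) [Fact q.Prime] (U : Subgroup (GalLoc q))
    (hU : (galLevels ℚ_[q] (PadicAlgCl q)).ok U), Function.Injective (corLoc (p := p) q U hU)

section Places

variable (S : Finset Nat.Primes) (H : Subgroup GalQ) (hH : (galLevels ℚ Qbar).ok H)

/-- A prime of `S` gives a prime. -/
lemma placePrime {S : Finset Nat.Primes} (q : ↥S) : Fact ((q.1 : Nat.Primes) : ℕ).Prime := ⟨q.1.2⟩

attribute [local instance] placePrime

include hH in
lemma exists_placeReps (q : ↥S) : ∃ (n : ℕ) (r : Fin n → GalQ),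
    Function.Bijective (Coh.repsMap (localGaloisToGlobal (q.1 : ℕ)) H r) := by
  have := (galLevels ℚ Qbar).finiteIndex hH
  have : Finite (GalQ ⧸ H) := inferInstance
  exact Coh.exists_reps _ H

/-- The number of places over `q`. -/
def placeCount (q : ↥S) : ℕ := (exists_placeReps S H hH q).choose

/-- Double coset representatives for the places over `q`. -/
def placeRep (q : ↥S) : Fin (placeCount S H hH q) → GalQ :=
  (exists_placeReps S H hH q).choose_spec.choose

lemma placeRep_bijective (q : ↥S) :
    Function.Bijective (Coh.repsMap (localGaloisToGlobal (q.1 : ℕ)) H (placeRep S H hH q)) :=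
  (exists_placeReps S H hH q).choose_spec.choose_spec

/-- The places of `H` over `S`. -/
abbrev PlaceIdx : Type := Σ q : ↥S, Fin (placeCount S H hH q)

variable {S H}

/-- The prime of a place. -/
abbrev placeP (i : PlaceIdx S H hH) : ℕ := ((i.1.1 : Nat.Primes) : ℕ)

/-- The double coset representative of a place. -/
abbrev placeG (i : PlaceIdx S H hH) : GalQ := placeRep S H hH i.1 i.2

/-- The local group of a place. -/
abbrev placeGroup (i : PlaceIdx S H hH) : Subgroup (GalLoc (placeP hH i)) :=
  locGroup (placeP hH i) H (placeG hH i)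

include hH in
lemma ok_placeGroup (i : PlaceIdx S H hH) :
    (galLevels ℚ_[placeP hH i] (PadicAlgCl (placeP hH i))).ok (placeGroup hH i) :=
  Coh.ok_twisted (compat_localGaloisToGlobal (placeP hH i)) hH _

variable (p) in
/-- Tuples of local classes. -/
abbrev LocV : Type := ∀ i : PlaceIdx S H hH, H1μ p (placeGroup hH i)

/-- Localisation at all places over `S`. -/
def locV : H1μ p H →+ LocV p hH (S := S) where
  toFun a i := locμ₁ p (placeP hH i) H (placeG hH i) a
  map_zero' := funext fun i => map_zero (locμ₁ p (placeP hH i) H (placeG hH i))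
  map_add' a b := funext fun i => map_add (locμ₁ p (placeP hH i) H (placeG hH i)) a b

/-- Forgetting that a class is unramified outside `S`. -/
def inflS₁ (S : Finset Nat.Primes) (H : Subgroup GalQ) :
    Coh.H1 ((galLevelsS S).restrict H) (Mu p Qbar) →+ H1μ p H :=
  Coh.H1.map (f := MonoidHom.id H)
    (fun _ ⟨V, hV, hVU⟩ => ⟨V, galLevels_ok_of_galLevelsS hV, hVU⟩)
    (φ := AddMonoidHom.id _) (fun _ _ => rfl)

variable (p S) in
/-- The global classes inside the local ones. -/
def globalImage : AddSubgroup (LocV p hH (S := S)) :=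
  ((locV hH).comp (inflS₁ S H)).range

variable (hμ : ∀ (h : H) (z : Mu p Qbar), h • z = z)

include hμ in
lemma smul_muLoc (i : PlaceIdx S H hH) (d : placeGroup hH i)
    (z : Mu p (PadicAlgCl (placeP hH i))) : d • z = z := by
  have : NeZero p := ⟨(Fact.out : p.Prime).ne_zero⟩
  obtain ⟨w, rfl⟩ := (muEmb_bijective (p := p) (placeP hH i)).2 z
  show (d : GalLoc (placeP hH i)) • muEmb (placeP hH i) w = _
  rw [← isEquivariant_muEmb]
  refine congrArg _ ?_
  have h := hμ (Coh.twistHom (localGaloisToGlobal (placeP hH i)) (placeG hH i) H d)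
    ((placeG hH i)⁻¹ • w)
  rw [Subgroup.smul_def, Coh.coe_twistHom, smul_smul, mul_assoc, mul_inv_cancel, mul_one,
    mul_smul] at h
  exact MulAction.injective (placeG hH i)⁻¹ h

variable {z₀ : Mu p Qbar} (hz : z₀ ≠ 0)

include hz in
lemma placeZeta_ne_zero (i : PlaceIdx S H hH) :
    muEmb (placeP hH i) (placeG hH i • z₀) ≠ 0 := by
  have : NeZero p := ⟨(Fact.out : p.Prime).ne_zero⟩
  rw [Ne, ← map_zero (muEmb (p := p) (placeP hH i)), (muEmb_bijective _).1.eq_iff]
  exact fun h => hz (MulAction.injective (placeG hH i) (h.trans (smul_zero _).symm))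

/-- The invariant of the cup product at one place, with `z₀` as the common root of unity. -/
def placePair (I : InvFam p) (i : PlaceIdx S H hH) :
    H1μ p (placeGroup hH i) →+ H1μ p (placeGroup hH i) →+ ZMod p :=
  AddMonoidHom.compHom ((I (placeP hH i)).comp
      (corLoc (p := p) (placeP hH i) (placeGroup hH i) (ok_placeGroup hH i) :)) |>.comp
    (Coh.cup₁₁ (isPairing_muPair (placeZeta_ne_zero hH hz i) (smul_muLoc hH hμ i))
      (isSmooth_restrict isSmooth_Mu (placeGroup hH i)))

/-- The sum of the local pairings. -/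
def sumPair (I : InvFam p) : LocV p hH (S := S) →+ LocV p hH (S := S) →+ ZMod p :=
  AddMonoidHom.mk'
    (fun x => AddMonoidHom.mk' (fun y => ∑ i, placePair hH hμ hz I i (x i) (y i)) fun y y' => by
      simp only [Pi.add_apply, map_add, Finset.sum_add_distrib])
    fun x x' => AddMonoidHom.ext fun y => by
      simp only [AddMonoidHom.mk'_apply, AddMonoidHom.add_apply, Pi.add_apply, map_add,
        Finset.sum_add_distrib]

variable (S) in
/-- The global classes are their own orthogonal complement. -/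
def IsLagrangianAt (I : InvFam p) : Prop :=
  ∀ y : LocV p hH (S := S),
    y ∈ globalImage p S hH ↔ ∀ x ∈ globalImage p S hH, sumPair hH hμ hz I x y = 0

end Places

/-- The Lagrangian property for all large `S`. -/
def HasLagrangians (I : InvFam p) : Prop :=
  ∀ (H : Subgroup GalQ) (hH : (galLevels ℚ Qbar).ok H) (hμ : ∀ (h : H) (z : Mu p Qbar), h • z = z)
    (z₀ : Mu p Qbar) (hz : z₀ ≠ 0) (S₀ : Finset Nat.Primes),
    ∃ S₁, S₀ ⊆ S₁ ∧ ∀ S, S₁ ⊆ S → IsLagrangianAt S hH hμ hz I

section LocalClasses

variable (q : ℕ) [Fact q.Prime]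

/-- The inertia subgroup of the local group. -/
def inertiaLoc : Subgroup (GalLoc q) :=
  ((padicPlace q).inertiaSubgroupIn ℚ).comap (localGaloisToGlobal q)

/-- The classes with a representative vanishing on inertia. -/
def unrClass (U : Subgroup (GalLoc q)) : AddSubgroup (H1μ p U) :=
  AddSubgroup.map Coh.H1.mk
    { carrier := {z : Coh.Z1 ((galLevels ℚ_[q] (PadicAlgCl q)).restrict U) (Mu p (PadicAlgCl q)) |
        ∀ d : U, (d : GalLoc q) ∈ inertiaLoc q → (z : U → Mu p (PadicAlgCl q)) d = 0}
      zero_mem' := fun _ _ => rfl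
      add_mem' := fun {z w} hz hw d hd => by
        show (z : U → Mu p (PadicAlgCl q)) d + (w : U → Mu p (PadicAlgCl q)) d = 0
        rw [hz d hd, hw d hd, add_zero]
      neg_mem' := fun {z} hz d hd => by
        show -(z : U → Mu p (PadicAlgCl q)) d = 0
        rw [hz d hd, neg_zero] }

end LocalClasses

/-- Local duality for `μ_p` in degree one. -/
structure IsLocalDual (I : InvFam p) : Prop where
  nondegenerate : ∀ (q : ℕ) [Fact q.Prime] (U : Subgroup (GalLoc q))
    (hU : (galLevels ℚ_[q] (PadicAlgCl q)).ok U)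
    (hμ : ∀ (d : U) (z : Mu p (PadicAlgCl q)), d • z = z) {z₀ : Mu p (PadicAlgCl q)} (hz : z₀ ≠ 0)
    (y : H1μ p U), y ≠ 0 → ∃ x, I q (corLoc q U hU (Coh.cup₁₁ (isPairing_muPair hz hμ)
      (isSmooth_restrict isSmooth_Mu U) x y)) ≠ 0
  unr : ∀ (q : ℕ) [Fact q.Prime], q ≠ p → ∀ (U : Subgroup (GalLoc q))
    (hU : (galLevels ℚ_[q] (PadicAlgCl q)).ok U)
    (hμ : ∀ (d : U) (z : Mu p (PadicAlgCl q)), d • z = z) {z₀ : Mu p (PadicAlgCl q)} (hz : z₀ ≠ 0)
    (y : H1μ p U), y ∈ unrClass q U ↔ ∀ x ∈ unrClass q U, I q (corLoc q U hU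
      (Coh.cup₁₁ (isPairing_muPair hz hμ) (isSmooth_restrict isSmooth_Mu U) x y)) = 0

end Fermat.Agent.Duality

end
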