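import Fermat.Agent.Duality.SLevels

/-!
# Galois representations as modules with an action
-/

set_option autoImplicit false

noncomputable section

namespace Fermat.Agent.Duality

variable {p : ℕ}

/-- The carrier of a representation, with the action as a scalar multiplication. -/
def RepMod (M : Rep.{0} (ZMod p) GalQ) : Type := M.V

variable {M : Rep.{0} (ZMod p) GalQ}

instance repModAddCommGroup : AddCommGroup (RepMod M) := inferInstanceAs (AddCommGroup M.V)

instance repModModule : Module (ZMod p) (RepMod M) := inferInstanceAs (Module (ZMod p) M.V)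

/-- The identification with the carrier. -/
def RepMod.equiv (M : Rep.{0} (ZMod p) GalQ) : RepMod M ≃ₗ[ZMod p] M.V := LinearEquiv.refl _ _

instance repModAction : DistribMulAction GalQ (RepMod M) where
  smul g m := (RepMod.equiv M).symm (M.ρ g (RepMod.equiv M m))
  one_smul m := (RepMod.equiv M).injective (by
    show M.ρ 1 (RepMod.equiv M m) = _
    rw [map_one]; rfl)
  mul_smul g h m := (RepMod.equiv M).injective (by
    show M.ρ (g * h) (RepMod.equiv M m) = M.ρ g (M.ρ h (RepMod.equiv M m))
    rw [map_mul]; rfl)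
  smul_zero g := map_zero (M.ρ g)
  smul_add g := map_add (M.ρ g)

instance repModLocalAction (q : ℕ) [Fact q.Prime] : DistribMulAction (GalLoc q) (RepMod M) :=
  DistribMulAction.compHom _ (localGaloisToGlobal q)

lemma RepMod.equiv_smul (g : GalQ) (m : RepMod M) :
    RepMod.equiv M (g • m) = M.ρ g (RepMod.equiv M m) := rfl

lemma RepMod.local_smul (q : ℕ) [Fact q.Prime] (d : GalLoc q) (m : RepMod M) :
    localGaloisToGlobal q d • m = d • m := rfl

lemma RepMod.torsion [NeZero p] (m : RepMod M) : p • m = 0 := by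
  rw [← Nat.cast_smul_eq_nsmul (ZMod p), ZMod.natCast_self, zero_smul]

instance repModFinite [Fact p.Prime] [FiniteDimensional (ZMod p) M] : Finite (RepMod M) :=
  haveI : NeZero p := ⟨(Fact.out : p.Prime).ne_zero⟩
  Module.finite_of_finite (ZMod p) (M := M.V)

variable {S : Finset Nat.Primes}

/-- An action factoring through an extension unramified outside `S` is smooth for `S`-levels. -/
lemma RepMod.isSmooth_galLevelsS
    (hsm : ∀ m : M, ∃ F : IntermediateField ℚ Qbar, FiniteDimensional ℚ F ∧
      ∀ s ∈ F.fixingSubgroup, M.ρ s m = m)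
    (hMur : ∀ q : Nat.Primes, q ∉ S → ∀ A : ValuationSubring Qbar,
      A.LiesOverPrime (q : ℕ) → ∀ g ∈ A.inertiaSubgroupIn ℚ, M.ρ g = 1) :
    Coh.IsSmooth (galLevelsS S) (RepMod M) :=
  Fermat.Agent.Duality.isSmooth_galLevelsS
    (fun m => by
      obtain ⟨F, hF, h⟩ := hsm (RepMod.equiv M m)
      exact ⟨F.fixingSubgroup, ⟨F, hF, le_rfl⟩, fun s hs => h s hs⟩)
    fun q hq A hA g hg m => (RepMod.equiv M).injective (by
      rw [RepMod.equiv_smul, hMur q hq A hA g hg]; rfl)

/-- A module smooth for `S`-levels is smooth for every local Galois group. -/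
lemma RepMod.isSmooth_local (h : Coh.IsSmooth (galLevelsS S) (RepMod M)) (q : ℕ) [Fact q.Prime] :
    Coh.IsSmooth (galLevels ℚ_[q] (PadicAlgCl q)) (RepMod M) := fun m => by
  obtain ⟨U, hU, h'⟩ := h m
  exact ⟨U.comap (localGaloisToGlobal q), compat_localGaloisToGlobal_S q S U hU,
    fun s hs => h' _ hs⟩

end Fermat.Agent.Duality

end
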