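import Fermat.Agent.Duality.Localisation
import Fermat.Agent.Gal.Hermite

/-!
# Smooth modules and finiteness for levels unramified outside `S`
-/

set_option autoImplicit false

noncomputable section

namespace Fermat.Agent.Duality

open IntermediateField

/-- An open subgroup is the fixing subgroup of its fixed field, which is a number field. -/
lemma exists_eq_fixingSubgroup {U : Subgroup GalQ} (hU : (galLevels ℚ Qbar).ok U) :
    ∃ E : IntermediateField ℚ Qbar, FiniteDimensional ℚ E ∧ E.fixingSubgroup = U := by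
  obtain ⟨F, hF, hle⟩ := hU
  have := hF
  have hopen : IsOpen (U : Set GalQ) :=
    Subgroup.isOpen_mono hle (IntermediateField.fixingSubgroup_isOpen F)
  have hclosed : IsClosed (U : Set GalQ) := Subgroup.isClosed_of_isOpen U hopen
  refine ⟨IntermediateField.fixedField U, ?_, InfiniteGalois.fixingSubgroup_fixedField ⟨U, hclosed⟩⟩
  have hle' : IntermediateField.fixedField U ≤ F := by
    rw [← InfiniteGalois.fixedField_fixingSubgroup F]
    exact IntermediateField.fixedField_antitone hle
  exact FiniteDimensional.of_injective (IntermediateField.inclusion hle').toLinearMap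
    (IntermediateField.inclusion_injective hle')

variable {S : Finset Nat.Primes}

/-- An open subgroup containing all inertia groups outside `S` is an `S`-level. -/
lemma galLevelsS_ok_of_inertia {U : Subgroup GalQ} (hU : (galLevels ℚ Qbar).ok U)
    (h : ∀ q : Nat.Primes, q ∉ S → ∀ A : ValuationSubring Qbar, A.LiesOverPrime (q : ℕ) →
      A.inertiaSubgroupIn ℚ ≤ U) : (galLevelsS S).ok U := by
  obtain ⟨E, hE, rfl⟩ := exists_eq_fixingSubgroup hU
  exact ⟨E, ⟨hE, h⟩, le_rfl⟩

/-- Smooth modules on which the inertia outside `S` is trivial are smooth for `S`-levels. -/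
lemma isSmooth_galLevelsS {A : Type} [AddCommGroup A] [DistribMulAction GalQ A]
    (hA : Coh.IsSmooth (galLevels ℚ Qbar) A)
    (h : ∀ q : Nat.Primes, q ∉ S → ∀ V : ValuationSubring Qbar, V.LiesOverPrime (q : ℕ) →
      ∀ g ∈ V.inertiaSubgroupIn ℚ, ∀ a : A, g • a = a) :
    Coh.IsSmooth (galLevelsS S) A := fun a => by
  obtain ⟨U, hU, hfix⟩ := hA a
  refine ⟨MulAction.stabilizer GalQ a, galLevelsS_ok_of_inertia
    ((galLevels ℚ Qbar).mono hU fun s hs => hfix s hs) fun q hq V hV g hg => h q hq V hV g hg a,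
    fun s hs => hs⟩

section Mu

variable {p : ℕ} {L F : Type} [Field L] [Field F] [Algebra F L]

lemma torsion_Mu (x : Mu p L) : p • x = 0 :=
  muVal_injective (by rw [map_nsmul, nsmul_muVal, map_zero])

lemma card_Mu [NeZero p] [IsAlgClosed L] [CharZero L] : Nat.card (Mu p L) = p :=
  (Nat.card_congr (Additive.toMul (α := rootsOfUnity p L))).trans
    (IsAlgClosed.card_rootsOfUnity_eq L p)

instance finite_Mu [NeZero p] : Finite (Mu p L) :=
  inferInstanceAs (Finite (Additive (rootsOfUnity p L)))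

variable [Fact p.Prime]

/-- Inertia outside `p` fixes the `p`-th roots of unity. -/
lemma smul_Mu_of_mem_inertia {q : ℕ} (hq : q.Prime) (hqp : q ≠ p) {V : ValuationSubring Qbar}
    (hV : V.LiesOverPrime q) {g : GalQ} (hg : g ∈ V.inertiaSubgroupIn ℚ) (x : Mu p Qbar) :
    g • x = x := by
  refine muVal_injective (Additive.toMul.injective (Units.ext ?_))
  show g (((muVal x).toMul : Qbarˣ) : Qbar) = _
  obtain ⟨φ, hφ⟩ := Gal.exists_isFrobeniusAt hq hV
  have hx : (((muVal x).toMul : Qbarˣ) : Qbar) ^ p = 1 := by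
    rw [← Units.val_pow_eq_pow_val, ← toMul_nsmul, nsmul_muVal, toMul_zero, Units.val_one]
  have hd : ¬ q ∣ p := fun h => hqp ((Nat.prime_dvd_prime_iff_eq hq Fact.out).mp h)
  exact φ.injective ((Gal.apply_rootOfUnity_of_isFrobeniusAt (Gal.isFrobeniusAt_mul_inertia hφ hg)
    hq hV hd hx).trans (Gal.apply_rootOfUnity_of_isFrobeniusAt hφ hq hV hd hx).symm)

/-- The roots of unity are smooth for `S`-levels when `p ∈ S`. -/
lemma isSmooth_MuS (hS : (⟨p, Fact.out⟩ : Nat.Primes) ∈ S) :
    Coh.IsSmooth (galLevelsS S) (Mu p Qbar) :=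
  isSmooth_galLevelsS isSmooth_Mu fun q hq V hV g hg x =>
    smul_Mu_of_mem_inertia q.2
      (fun h => hq (by rw [show q = ⟨p, Fact.out⟩ from Subtype.ext h]; exact hS))
      hV hg x

/-- The Galois action on `μ_p` is the cyclotomic exponent. -/
lemma smul_Mu_eq_cycloExp (g : GalQ) (x : Mu p Qbar) :
    g • x = ExtCitation.cycloExp p g • x := by
  have : NeZero p := ⟨(Fact.out : p.Prime).ne_zero⟩
  refine muVal_injective ?_
  rw [muVal_smul, map_nsmul]
  refine Additive.toMul.injective (Units.ext ?_)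
  rw [toMul_nsmul, Units.val_pow_eq_pow_val]
  exact modularCyclotomicCharacter.spec _ (ExtCitation.card_rootsOfUnity_eq_self p)
    (g : Qbar ≃+* Qbar) ((mem_rootsOfUnity p _).mp x.toMul.2)

end Mu

/-- **Finiteness** of `H¹` for `S`-levels and a finite module. -/
theorem finite_H1_galLevelsS {A : Type} [AddCommGroup A] [DistribMulAction GalQ A] [Finite A]
    (hA : Coh.IsSmooth (galLevelsS S) A) : Finite (Coh.H1 (galLevelsS S) A) := by
  obtain ⟨N₀, hN₀, hfix⟩ := hA.exists_fixing id
  have := (galLevelsS S).finiteIndex hN₀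
  obtain ⟨E, hE, hmax⟩ := Gal.exists_isUnramifiedOutside_forall_le S (N₀.index * Nat.card A)
  have := hE.1
  have : E.fixingSubgroup.FiniteIndex := finiteIndex_fixingSubgroup ℚ Qbar E
  suffices key : ∀ z : Coh.Z1 (galLevelsS S) A, ∀ g, ∀ s ∈ E.fixingSubgroup,
      (z : GalQ → A) (g * s) = (z : GalQ → A) g by
    have : Finite (Coh.Z1 (galLevelsS S) A) := by
      refine Finite.of_injective
        (fun z (x : GalQ ⧸ E.fixingSubgroup) => (z : GalQ → A) x.out) fun z z' h => ?_
      refine Subtype.ext (funext fun g => ?_)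
      obtain ⟨s, hs⟩ := QuotientGroup.mk_out_eq_mul E.fixingSubgroup g
      have h1 : (z : GalQ → A) (g : GalQ ⧸ E.fixingSubgroup).out =
          (z' : GalQ → A) (g : GalQ ⧸ E.fixingSubgroup).out := congrFun h _
      rwa [hs, key z g _ s.2, key z' g _ s.2] at h1
    exact Finite.of_surjective _ Coh.H1.mk_surjective
  intro z
  have hz := (Coh.mem_Z1.mp z.2).2
  let U : Subgroup GalQ :=
    { carrier := {s | s ∈ N₀ ∧ (z : GalQ → A) s = 0}
      one_mem' := ⟨one_mem _, by simpa using hz 1 1⟩
      mul_mem' := fun {s t} hs ht => ⟨mul_mem hs.1 ht.1, by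
        rw [hz, hs.2, ht.2, smul_zero, add_zero]⟩
      inv_mem' := fun {s} hs => ⟨inv_mem hs.1, by
        have h1 := hz s⁻¹ s
        have h2 : (z : GalQ → A) 1 = 0 := by simpa using hz 1 1
        rw [inv_mul_cancel, h2, hs.2, smul_zero, zero_add] at h1
        exact h1.symm⟩ }
  have hUok : (galLevelsS S).ok U := by
    obtain ⟨V, hV, hzV⟩ := z.2.1
    refine (galLevelsS S).mono ((galLevelsS S).inf_ok hN₀ hV) fun s hs => ⟨hs.1, ?_⟩
    rw [show (z : GalQ → A) s = (z : GalQ → A) (1 * s) by rw [one_mul], hzV 1 s hs.2]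
    simpa using hz 1 1
  have := (galLevelsS S).finiteIndex hUok
  have hcard : U.index ≤ N₀.index * Nat.card A := by
    have : Finite (GalQ ⧸ N₀) := inferInstance
    rw [Subgroup.index_eq_card, Subgroup.index_eq_card, ← Nat.card_prod]
    refine Nat.card_le_card_of_injective
      (fun x : GalQ ⧸ U => ((x.out : GalQ ⧸ N₀), (z : GalQ → A) x.out)) fun x y h => ?_
    obtain ⟨h1, h2⟩ := Prod.ext_iff.mp h
    dsimp only at h1 h2
    rw [← QuotientGroup.out_eq' x, ← QuotientGroup.out_eq' y]
    rw [QuotientGroup.eq] at h1 ⊢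
    refine ⟨h1, ?_⟩
    have h3 := hz x.out (x.out⁻¹ * y.out)
    rw [mul_inv_cancel_left, ← h2, right_eq_add] at h3
    exact smul_eq_zero_iff_eq _ |>.mp h3
  obtain ⟨F, hF, hFU⟩ := exists_eq_fixingSubgroup (galLevels_ok_of_galLevelsS hUok)
  have := hF
  have hFur : F.IsUnramifiedOutside S := by
    obtain ⟨F', hF', hle⟩ := hUok
    refine ⟨hF, fun q hq V hV => ?_⟩
    rw [hFU]
    exact (hF'.2 q hq V hV).trans hle
  have hdeg : Module.finrank ℚ F ≤ N₀.index * Nat.card A := by
    have := finiteIndex_fixingSubgroup ℚ Qbar F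
    refine le_trans ?_ hcard
    rw [← hFU, Subgroup.index_eq_card, ← AlgHom.card ℚ F Qbar, ← Nat.card_eq_fintype_card]
    refine Nat.card_le_card_of_surjective
      (fun x : GalQ ⧸ F.fixingSubgroup => (x.out : Qbar →ₐ[ℚ] Qbar).comp F.val) fun f => ?_
    let ρ : GalQ := AlgEquiv.ofBijective (f.liftNormal Qbar)
      (Algebra.IsAlgebraic.algHom_bijective _)
    refine ⟨(ρ : GalQ ⧸ F.fixingSubgroup), AlgHom.ext fun e => ?_⟩
    obtain ⟨s, hs⟩ := QuotientGroup.mk_out_eq_mul F.fixingSubgroup ρ
    show (ρ : GalQ ⧸ F.fixingSubgroup).out (e : Qbar) = f e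
    rw [hs, AlgEquiv.mul_apply, (IntermediateField.mem_fixingSubgroup_iff F _).mp s.2 _ e.2]
    show f.liftNormal Qbar (algebraMap F Qbar e) = _
    rw [AlgHom.liftNormal_commutes]
    rfl
  intro g s hs
  have hsU : s ∈ U := hFU ▸ IntermediateField.fixingSubgroup_antitone (hmax F hFur hdeg) hs
  rw [hz, hsU.2, smul_zero, zero_add]

end Fermat.Agent.Duality

end
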